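import Mathlib
import Fermat.Prelude.Def_ModularCurve_LaurentCoeff

/-!
# Descent of linear relations between Laurent series
-/

set_option autoImplicit false

noncomputable section

namespace Fermat.Agent.ModFun

open ModularCurve

section descent

variable {K L : Type*} [Field K] [Field L] [Algebra K L]

/-- `LaurentSeries K` as a `K`-module through its algebra structure. -/
abbrev lsModule (K : Type*) [Field K] : Module K (LaurentSeries K) :=
  Algebra.toModule

/-- The submodules of `LaurentSeries K` w.r.t. the algebra structure. -/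
abbrev LSub (K : Type*) [Field K] : Type _ :=
  @Submodule K (LaurentSeries K) _ _ (lsModule K)

theorem algebraMap_mul_coeff {K : Type*} [Field K] (c : K) (x : LaurentSeries K) (n : ℤ) :
    (algebraMap K (LaurentSeries K) c * x).coeff n = c * x.coeff n := by
  rw [algebraMap_laurentSeries_eq_single, HahnSeries.coeff_single_zero_mul]

/-- Apply a linear functional to all coefficients. -/
def mapFun (π : L →ₗ[K] K) (G : LaurentSeries L) : LaurentSeries K := G.map π

@[simp]
theorem mapFun_coeff (π : L →ₗ[K] K) (G : LaurentSeries L) (n : ℤ) :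
    (mapFun π G).coeff n = π (G.coeff n) := rfl

theorem mapFun_add (π : L →ₗ[K] K) (G H : LaurentSeries L) :
    mapFun π (G + H) = mapFun π G + mapFun π H := by
  ext n; simp

theorem mapFun_mul (π : L →ₗ[K] K) (y : LaurentSeries K) (G : LaurentSeries L) :
    mapFun π (coeffMap (algebraMap K L) y * G) = y * mapFun π G := by
  ext n
  rw [mapFun_coeff, HahnSeries.coeff_mul_left' (s := y.support) y.isPWO_support ?_,
    HahnSeries.coeff_mul_right' (s := G.support) G.isPWO_support ?_, map_sum]
  · refine Finset.sum_congr rfl fun ij _ => ?_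
    rw [coeffMap_coeff, mapFun_coeff, ← Algebra.smul_def, map_smul, smul_eq_mul]
  · intro m hm
    rw [HahnSeries.mem_support] at hm ⊢
    intro h0
    exact hm (by rw [mapFun_coeff, h0, map_zero])
  · intro m hm
    rw [HahnSeries.mem_support] at hm ⊢
    intro h0
    exact hm (by rw [coeffMap_coeff, h0, map_zero])

theorem mapFun_mem (A : Subalgebra K (LaurentSeries K)) {G : LaurentSeries L}
    (hG : G ∈ @Submodule.span L (LaurentSeries L) _ _ (lsModule L)
      (coeffMap (algebraMap K L) '' (A : Set (LaurentSeries K))))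
    (π : L →ₗ[K] K) : mapFun π G ∈ A := by
  induction hG using Submodule.span_induction generalizing π with
  | mem x hx =>
    obtain ⟨y, hy, rfl⟩ := hx
    have : mapFun π (coeffMap (algebraMap K L) y) = algebraMap K (LaurentSeries K) (π 1) * y := by
      ext n
      rw [mapFun_coeff, coeffMap_coeff, Algebra.algebraMap_eq_smul_one, map_smul,
        algebraMap_mul_coeff, smul_eq_mul, mul_comm]
    rw [this]
    exact mul_mem (A.algebraMap_mem _) hy
  | zero =>
    have : mapFun π (0 : LaurentSeries L) = 0 := by ext n; simp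
    rw [this]
    exact A.zero_mem
  | add x y _ _ hx hy =>
    rw [mapFun_add]
    exact A.add_mem (hx π) (hy π)
  | smul c x _ hx =>
    have : mapFun π (algebraMap L (LaurentSeries L) c * x) =
        mapFun (π ∘ₗ LinearMap.mulLeft K c) x := by
      ext n
      rw [mapFun_coeff, algebraMap_mul_coeff, mapFun_coeff]
      rfl
    rw [Algebra.smul_def, this]
    exact hx _

/-- Descent of a linear relation. -/
theorem exists_relation_descent (A : Subalgebra K (LaurentSeries K)) (y : LaurentSeries K)
    {P Q : LaurentSeries L}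
    (hP : P ∈ @Submodule.span L (LaurentSeries L) _ _ (lsModule L)
      (coeffMap (algebraMap K L) '' (A : Set (LaurentSeries K))))
    (hQ : Q ∈ @Submodule.span L (LaurentSeries L) _ _ (lsModule L)
      (coeffMap (algebraMap K L) '' (A : Set (LaurentSeries K))))
    (hQ0 : Q ≠ 0) (h : coeffMap (algebraMap K L) y * Q = P) :
    ∃ a ∈ A, ∃ b ∈ A, a ≠ 0 ∧ y * a = b := by
  obtain ⟨n, hn⟩ : ∃ n, Q.coeff n ≠ 0 := by
    by_contra h0
    push Not at h0
    exact hQ0 (HahnSeries.ext (funext h0))
  obtain ⟨π, hπ⟩ : ∃ π : L →ₗ[K] K, π (Q.coeff n) ≠ 0 := by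
    by_contra h0
    push Not at h0
    exact hn ((Module.forall_dual_apply_eq_zero_iff K _).mp h0)
  refine ⟨mapFun π Q, mapFun_mem A hQ π, mapFun π P, mapFun_mem A hP π, ?_, ?_⟩
  · intro h0
    apply hπ
    rw [← mapFun_coeff, h0, HahnSeries.coeff_zero]
  · rw [← h, mapFun_mul]

theorem adjoin_le_span (s : Set (LaurentSeries K)) {x : LaurentSeries L}
    (hx : x ∈ Algebra.adjoin L (coeffMap (algebraMap K L) '' s)) :
    x ∈ @Submodule.span L (LaurentSeries L) _ _ (lsModule L)
      (coeffMap (algebraMap K L) '' ((Algebra.adjoin K s : Subalgebra K (LaurentSeries K)) :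
          Set (LaurentSeries K))) := by
  rw [← Subalgebra.mem_toSubmodule, Algebra.adjoin_eq_span] at hx
  refine (@Submodule.span_mono L (LaurentSeries L) _ _ (lsModule L) _ _ ?_) hx
  intro x hx
  induction hx using Submonoid.closure_induction with
  | mem x hx =>
    obtain ⟨y, hy, rfl⟩ := hx
    exact ⟨y, Algebra.subset_adjoin hy, rfl⟩
  | one => exact ⟨1, one_mem (Algebra.adjoin K s), map_one _⟩
  | mul x y _ _ hx hy =>
    obtain ⟨a, ha, rfl⟩ := hx
    obtain ⟨b, hb, rfl⟩ := hy
    exact ⟨a * b, mul_mem (S := Subalgebra K (LaurentSeries K)) ha hb, map_mul _ _ _⟩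

/-- Descent of membership in a field of Laurent series. -/
theorem mem_adjoin_of_relation (s : Set (LaurentSeries K)) (y : LaurentSeries K)
    {P Q : LaurentSeries L}
    (hP : P ∈ Algebra.adjoin L (coeffMap (algebraMap K L) '' s))
    (hQ : Q ∈ Algebra.adjoin L (coeffMap (algebraMap K L) '' s))
    (hQ0 : Q ≠ 0) (h : coeffMap (algebraMap K L) y * Q = P) :
    y ∈ IntermediateField.adjoin K s := by
  obtain ⟨a, ha, b, hb, ha0, hab⟩ := exists_relation_descent
    (Algebra.adjoin K s) y (adjoin_le_span s hP) (adjoin_le_span s hQ) hQ0 h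
  rw [IntermediateField.mem_adjoin_iff_div]
  exact ⟨b, hb, a, ha, by rw [← hab]; field_simp⟩

end descent

/-- A version with an arbitrary ring homomorphism. -/
theorem mem_adjoin_of_relation' {K L : Type*} [Field K] [Field L] (ι : K →+* L)
    (s : Set (LaurentSeries K)) (y : LaurentSeries K) {P Q : LaurentSeries L}
    (hP : P ∈ Algebra.adjoin L (coeffMap ι '' s)) (hQ : Q ∈ Algebra.adjoin L (coeffMap ι '' s))
    (hQ0 : Q ≠ 0) (h : coeffMap ι y * Q = P) :
    y ∈ IntermediateField.adjoin K s := by
  let := ι.toAlgebra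
  exact mem_adjoin_of_relation s y hP hQ hQ0 h

end Fermat.Agent.ModFun
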