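import Mathlib
import Fermat.Agent.IntStruct.Interp
import Fermat.Agent.JLevelOne.Basic

/-!
# Lagrange interpolation for modular functions on a finite index subgroup

`IsModFun Γ u`: `u` is holomorphic on `ℍ`, invariant under `Γ` and has at most a pole at each
cusp.  If `v` is such a function with pairwise distinct conjugates, then every such `u` satisfies
`u * Q(j, v) = P(j, v)` with complex polynomials `P`, `Q` with `Q(j, v) ≠ 0`.
-/

set_option autoImplicit false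

open UpperHalfPlane ModularForm Matrix.SpecialLinearGroup
open scoped MatrixGroups Manifold ModularForm Polynomial

noncomputable section

namespace Fermat.Agent.ModFun

open Fermat.Agent.JLevelOne Fermat.Agent.IntStruct

theorem bdd_disc_pow (m : ℕ) : IsBoundedAtImInfty ((discriminant : ℍ → ℂ) ^ m) := by
  induction m with
  | zero => exact Filter.const_boundedAtFilter _ (1 : ℂ)
  | succ m ih =>
    rw [pow_succ]
    exact ih.mul (ModularFormClass.bdd_at_infty CuspForm.discriminant)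

theorem bdd_mul_disc_pow {u : ℍ → ℂ} {M m : ℕ} (hMm : M ≤ m)
    (h : IsBoundedAtImInfty (u * (discriminant : ℍ → ℂ) ^ M)) :
    IsBoundedAtImInfty (u * (discriminant : ℍ → ℂ) ^ m) := by
  have h1 := h.mul (bdd_disc_pow (m - M))
  rwa [mul_assoc, ← pow_add, Nat.add_sub_cancel' hMm] at h1

/-- Holomorphic functions on `ℍ` with at most a pole at `i∞`. -/
def polInf : Subalgebra ℂ (ℍ → ℂ) where
  carrier := {u | MDiff u ∧ ∃ M : ℕ, IsBoundedAtImInfty (u * (discriminant : ℍ → ℂ) ^ M)}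
  mul_mem' := by
    rintro a b ⟨ha, M, hM⟩ ⟨hb, M', hM'⟩
    refine ⟨ha.mul hb, M + M', ?_⟩
    have h1 := hM.mul hM'
    have h2 : a * b * (discriminant : ℍ → ℂ) ^ (M + M') =
        a * (discriminant : ℍ → ℂ) ^ M * (b * (discriminant : ℍ → ℂ) ^ M') := by
      rw [pow_add]
      ring
    rw [h2]
    exact h1
  add_mem' := by
    rintro a b ⟨ha, M, hM⟩ ⟨hb, M', hM'⟩
    refine ⟨ha.add hb, max M M', ?_⟩
    rw [add_mul]
    exact (bdd_mul_disc_pow (le_max_left _ _) hM).add (bdd_mul_disc_pow (le_max_right _ _) hM')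
  algebraMap_mem' r := by
    refine ⟨mdifferentiable_const, 0, ?_⟩
    have := Filter.const_boundedAtFilter (l := atImInfty) (r : ℂ)
    simpa using! this

theorem mem_polInf {u : ℍ → ℂ} : u ∈ polInf ↔ MDiff u ∧ ∃ M : ℕ, IsBoundedAtImInfty
    (u * (discriminant : ℍ → ℂ) ^ M) := Iff.rfl

theorem polInf_mdiff (u : polInf) : MDiff (u : ℍ → ℂ) := u.2.1

/-- Evaluation at `τ`. -/
def evP (τ : ℍ) : polInf →+* ℂ := (Pi.evalRingHom (fun _ : ℍ => ℂ) τ).comp polInf.val.toRingHom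

@[simp] theorem evP_apply (τ : ℍ) (f : polInf) : evP τ f = (f : ℍ → ℂ) τ := rfl

/-- An `SL(2, ℤ)`-invariant element of `polInf` is a polynomial in `j`. -/
theorem exists_polynomial (u : polInf) (hinv : ∀ (γ : SL(2, ℤ)) (τ : ℍ), (u : ℍ → ℂ) (γ • τ) =
    (u : ℍ → ℂ) τ) : ∃ P : ℂ[X], ∀ τ, (u : ℍ → ℂ) τ = P.eval (jFun τ) := by
  obtain ⟨hu, M, hM⟩ := u.2
  obtain ⟨P, -, hP⟩ := exists_polynomial_of_invariant M (u : ℍ → ℂ) hu hinv hM
  exact ⟨P, hP⟩

/-- Modular functions, holomorphic on `ℍ`, on the subgroup `Γ`. -/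
structure IsModFun (Γ : Subgroup SL(2, ℤ)) (u : ℍ → ℂ) : Prop where
  inv : ∀ γ ∈ Γ, ∀ τ : ℍ, u (γ • τ) = u τ
  conj : ∀ γ : SL(2, ℤ), (fun τ : ℍ => u (γ • τ)) ∈ polInf

variable {Γ : Subgroup SL(2, ℤ)}

/-- The conjugates of a `Γ`-invariant function. -/
def conjF {u : ℍ → ℂ} (hu : IsModFun Γ u) (q : SL(2, ℤ) ⧸ Γ) : polInf :=
  Quotient.liftOn' q (fun g => ⟨fun τ => u (g⁻¹ • τ), hu.conj g⁻¹⟩) (by
    intro a b hab
    rw [QuotientGroup.leftRel_apply] at hab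
    apply Subtype.ext
    funext τ
    show u (a⁻¹ • τ) = u (b⁻¹ • τ)
    rw [← hu.inv _ (inv_mem hab) (a⁻¹ • τ), smul_smul]
    congr 2
    group)

theorem conjF_mk {u : ℍ → ℂ} (hu : IsModFun Γ u) (g : SL(2, ℤ)) (τ : ℍ) :
    (conjF hu (g : SL(2, ℤ) ⧸ Γ) : ℍ → ℂ) τ = u (g⁻¹ • τ) := rfl

theorem conjF_one {u : ℍ → ℂ} (hu : IsModFun Γ u) :
    (conjF hu ((1 : SL(2, ℤ)) : SL(2, ℤ) ⧸ Γ) : ℍ → ℂ) = u := by
  funext τ
  rw [conjF_mk, inv_one, one_smul]

theorem conjF_smul {u : ℍ → ℂ} (hu : IsModFun Γ u) (γ : SL(2, ℤ)) (q : SL(2, ℤ) ⧸ Γ) (τ : ℍ) :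
    (conjF hu q : ℍ → ℂ) (γ • τ) = (conjF hu (γ⁻¹ • q) : ℍ → ℂ) τ := by
  induction q using QuotientGroup.induction_on with
  | H g =>
    show u (g⁻¹ • γ • τ) = u ((γ⁻¹ * g)⁻¹ • τ)
    rw [smul_smul]
    congr 2
    group

section lag

variable [Γ.FiniteIndex]

open Classical in
/-- The Lagrange polynomial of `u` w.r.t. `v`. -/
def lagr {v u : ℍ → ℂ} (hv : IsModFun Γ v) (hu : IsModFun Γ u) : polInf[X] :=
  ∑ q : SL(2, ℤ) ⧸ Γ, Polynomial.C (conjF hu q) *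
    ∏ q' ∈ Finset.univ.erase q, (Polynomial.X - Polynomial.C (conjF hv q'))

open Classical in
/-- The interpolation denominator. -/
def lagrD {v : ℍ → ℂ} (hv : IsModFun Γ v) : polInf :=
  ∏ q ∈ Finset.univ.erase ((1 : SL(2, ℤ)) : SL(2, ℤ) ⧸ Γ),
    (conjF hv ((1 : SL(2, ℤ)) : SL(2, ℤ) ⧸ Γ) - conjF hv q)

open Polynomial in
theorem lagr_smul {v u : ℍ → ℂ} (hv : IsModFun Γ v) (hu : IsModFun Γ u) (γ : SL(2, ℤ)) (τ : ℍ) :
    (lagr hv hu).map (evP (γ • τ)) = (lagr hv hu).map (evP τ) := by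
  classical
  simp only [lagr, Polynomial.map_sum, Polynomial.map_mul, Polynomial.map_prod, Polynomial.map_sub,
    map_X, map_C, evP_apply, conjF_smul]
  rw [← Equiv.sum_comp (MulAction.toPerm (γ⁻¹) : Equiv.Perm (SL(2, ℤ) ⧸ Γ))
    (fun i => C ((conjF hu i : ℍ → ℂ) τ) * ∏ q' ∈ Finset.univ.erase i,
      ((X : ℂ[X]) - C ((conjF hv q' : ℍ → ℂ) τ)))]
  refine Finset.sum_congr rfl fun q _ => ?_
  congr 1
  refine Finset.prod_bij (fun a _ => γ⁻¹ • a) ?_ ?_ ?_ ?_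
  · intro a ha
    simpa using ha
  · intro a _ b _ hab
    simpa using hab
  · intro b hb
    refine ⟨γ • b, ?_, by simp⟩
    simp only [Finset.mem_erase, Finset.mem_univ, and_true, MulAction.toPerm_apply] at hb ⊢
    intro h
    exact hb (by simp [← h])
  · intro a _
    rfl

theorem lagr_eval {v u : ℍ → ℂ} (hv : IsModFun Γ v) (hu : IsModFun Γ u) :
    (lagr hv hu).eval (conjF hv ((1 : SL(2, ℤ)) : SL(2, ℤ) ⧸ Γ)) =
      conjF hu ((1 : SL(2, ℤ)) : SL(2, ℤ) ⧸ Γ) * lagrD hv := by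
  classical
  rw [lagr, Polynomial.eval_finsetSum,
    Finset.sum_eq_single ((1 : SL(2, ℤ)) : SL(2, ℤ) ⧸ Γ)]
  · simp [lagrD, Polynomial.eval_prod]
  · intro q _ hq
    rw [Polynomial.eval_mul, Polynomial.eval_prod, Finset.prod_eq_zero
      (i := ((1 : SL(2, ℤ)) : SL(2, ℤ) ⧸ Γ)) (by simpa using hq.symm) (by simp), mul_zero]
  · simp

/-- `u * D = L_u(j, v)` with a polynomial `L_u`. -/
theorem exists_lagr {v : ℍ → ℂ} (hv : IsModFun Γ v) {u : ℍ → ℂ} (hu : IsModFun Γ u) :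
    ∃ (n : ℕ) (P : ℕ → ℂ[X]), ∀ τ, u τ * (lagrD hv : ℍ → ℂ) τ =
      ∑ i ∈ Finset.range n, (P i).eval (jFun τ) * v τ ^ i := by
  have h1 : ∀ i : ℕ, ∃ P : ℂ[X], ∀ τ, ((lagr hv hu).coeff i : ℍ → ℂ) τ = P.eval (jFun τ) := by
    intro i
    refine exists_polynomial _ fun γ τ => ?_
    have h := congrArg (fun P => Polynomial.coeff P i) (lagr_smul hv hu γ τ)
    simpa only [Polynomial.coeff_map, evP_apply] using h
  choose P hP using h1
  refine ⟨(lagr hv hu).natDegree + 1, P, fun τ => ?_⟩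
  have h2 := congrArg (evP τ) (lagr_eval hv hu)
  rw [map_mul, evP_apply _ (conjF hu _), conjF_one, Polynomial.eval_eq_sum_range, map_sum,
    evP_apply _ (lagrD hv)] at h2
  rw [← h2]
  refine Finset.sum_congr rfl fun i _ => ?_
  rw [map_mul, map_pow, evP_apply _ (conjF hv _), conjF_one, evP_apply, hP]

theorem isModFun_one : IsModFun Γ (1 : ℍ → ℂ) where
  inv _ _ _ := rfl
  conj _ := polInf.one_mem

/-- If the stabiliser of `v` is `Γ` then the interpolation denominator is nonzero. -/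
theorem lagrD_ne_zero {v : ℍ → ℂ} (hv : IsModFun Γ v)
    (hstab : ∀ γ : SL(2, ℤ), (∀ τ : ℍ, v (γ • τ) = v τ) → γ ∈ Γ) :
    (lagrD hv : ℍ → ℂ) ≠ 0 := by
  classical
  intro h0
  have h1 : (lagrD hv : ℍ → ℂ) = ∏ q ∈ Finset.univ.erase ((1 : SL(2, ℤ)) : SL(2, ℤ) ⧸ Γ),
      ((conjF hv ((1 : SL(2, ℤ)) : SL(2, ℤ) ⧸ Γ) : ℍ → ℂ) - (conjF hv q : ℍ → ℂ)) := by
    rw [lagrD]
    simp
  rw [h1, UpperHalfPlane.prod_eq_zero_iff] at h0
  · obtain ⟨q, hq, hq0⟩ := h0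
    induction q using QuotientGroup.induction_on with
    | H a =>
      rw [conjF_one, sub_eq_zero] at hq0
      have h2 := hstab a⁻¹ fun τ => (congrFun hq0 τ).symm
      apply (Finset.mem_erase.mp hq).1
      rw [QuotientGroup.eq]
      simpa using h2
  · intro q _
    exact (polInf_mdiff _).sub (polInf_mdiff _)

/-- Lagrange interpolation for modular functions. -/
theorem exists_interp_modFun {v : ℍ → ℂ} (hv : IsModFun Γ v)
    (hstab : ∀ γ : SL(2, ℤ), (∀ τ : ℍ, v (γ • τ) = v τ) → γ ∈ Γ)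
    {u : ℍ → ℂ} (hu : IsModFun Γ u) :
    ∃ (n n' : ℕ) (P Q : ℕ → ℂ[X]),
      (∀ τ, u τ * (∑ i ∈ Finset.range n', (Q i).eval (jFun τ) * v τ ^ i) =
        ∑ i ∈ Finset.range n, (P i).eval (jFun τ) * v τ ^ i) ∧
      ∃ τ, ∑ i ∈ Finset.range n', (Q i).eval (jFun τ) * v τ ^ i ≠ 0 := by
  obtain ⟨n, P, hP⟩ := exists_lagr hv hu
  obtain ⟨n', Q, hQ⟩ := exists_lagr hv (isModFun_one (Γ := Γ))
  refine ⟨n, n', P, Q, fun τ => ?_, ?_⟩
  · rw [← hP, ← hQ]
    simp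
  · by_contra h0
    push Not at h0
    refine lagrD_ne_zero hv hstab (funext fun τ => ?_)
    have := hQ τ
    rw [h0 τ] at this
    simpa using this

end lag

end Fermat.Agent.ModFun
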