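import Mathlib
import Fermat.Agent.X0Emb.LExp
import Fermat.Agent.ModFun.Lagrange

/-!
# Growth conditions for functions on the upper half plane
-/

set_option autoImplicit false

open UpperHalfPlane hiding I
open ModularForm Matrix.SpecialLinearGroup Filter Asymptotics
open scoped MatrixGroups Manifold ModularForm Polynomial Topology

noncomputable section

namespace Fermat.Agent.ModFun

open Fermat.Agent.JLevelOne Fermat.Agent.IntStruct Fermat.Agent.X0Emb

local notation "𝕢" => Function.Periodic.qParam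

/-- At most exponential growth at `i∞`. -/
def GrowthInf (F : ℍ → ℂ) : Prop :=
  ∃ m : ℕ, F =O[atImInfty] (fun τ : ℍ => Real.exp (m * τ.im))

/-- At most exponential growth at all cusps. -/
def ModGrowth (F : ℍ → ℂ) : Prop :=
  ∀ σ : SL(2, ℤ), ∃ m : ℕ, (fun τ : ℍ => F (σ • τ)) =O[atImInfty]
    (fun τ : ℍ => Real.exp (m * τ.im))

theorem eventually_im_pos : ∀ᶠ τ : ℍ in atImInfty, 0 < τ.im := Eventually.of_forall fun τ => τ.im_pos

theorem exp_isBigO {m m' : ℕ} (h : m ≤ m') :
    (fun τ : ℍ => Real.exp (m * τ.im)) =O[atImInfty] (fun τ : ℍ => Real.exp (m' * τ.im)) := by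
  refine IsBigO.of_norm_le fun τ => ?_
  rw [Real.norm_of_nonneg (Real.exp_pos _).le]
  refine Real.exp_le_exp.mpr (mul_le_mul_of_nonneg_right ?_ τ.im_pos.le)
  exact_mod_cast h

namespace GrowthInf

variable {F G : ℍ → ℂ}

theorem add (hF : GrowthInf F) (hG : GrowthInf G) : GrowthInf (F + G) := by
  obtain ⟨m, hm⟩ := hF
  obtain ⟨m', hm'⟩ := hG
  exact ⟨max m m', (hm.trans (exp_isBigO (le_max_left _ _))).add
    (hm'.trans (exp_isBigO (le_max_right _ _)))⟩

theorem neg (hF : GrowthInf F) : GrowthInf (-F) := by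
  obtain ⟨m, hm⟩ := hF
  exact ⟨m, hm.neg_left⟩

theorem mul (hF : GrowthInf F) (hG : GrowthInf G) : GrowthInf (F * G) := by
  obtain ⟨m, hm⟩ := hF
  obtain ⟨m', hm'⟩ := hG
  refine ⟨m + m', (hm.mul hm').trans (IsBigO.of_norm_le fun τ => ?_)⟩
  rw [← Real.exp_add]
  rw [Real.norm_of_nonneg (Real.exp_pos _).le]
  refine le_of_eq ?_
  congr 1
  push_cast
  ring

theorem of_bounded (hF : IsBoundedAtImInfty F) : GrowthInf F := by
  refine ⟨0, (show F =O[atImInfty] (1 : ℍ → ℝ) from hF).trans (IsBigO.of_norm_le fun τ => ?_)⟩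
  simp

theorem const (c : ℂ) : GrowthInf (fun _ => c) := of_bounded (Filter.const_boundedAtFilter _ c)

theorem pow (hF : GrowthInf F) (n : ℕ) : GrowthInf (F ^ n) := by
  induction n with
  | zero => simpa using! const 1
  | succ n ih => rw [pow_succ]; exact ih.mul hF

theorem prod {ι : Type*} (s : Finset ι) {F : ι → ℍ → ℂ} (h : ∀ i ∈ s, GrowthInf (F i)) :
    GrowthInf (∏ i ∈ s, F i) := by
  classical
  induction s using Finset.induction_on with
  | empty => simpa using! const 1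
  | insert a s ha ih =>
    rw [Finset.prod_insert ha]
    exact (h a (Finset.mem_insert_self _ _)).mul (ih fun i hi => h i (Finset.mem_insert_of_mem hi))

end GrowthInf

theorem modGrowth_iff {F : ℍ → ℂ} :
    ModGrowth F ↔ ∀ σ : SL(2, ℤ), GrowthInf (fun τ => F (σ • τ)) := Iff.rfl

namespace ModGrowth

variable {F G : ℍ → ℂ}

theorem growthInf (hF : ModGrowth F) : GrowthInf F := by
  have := hF 1
  simpa only [one_smul] using! this

theorem add (hF : ModGrowth F) (hG : ModGrowth G) : ModGrowth (F + G) :=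
  fun σ => GrowthInf.add (hF σ) (hG σ)

theorem neg (hF : ModGrowth F) : ModGrowth (-F) := fun σ => GrowthInf.neg (hF σ)

theorem sub (hF : ModGrowth F) (hG : ModGrowth G) : ModGrowth (F - G) := by
  rw [sub_eq_add_neg]; exact hF.add hG.neg

theorem mul (hF : ModGrowth F) (hG : ModGrowth G) : ModGrowth (F * G) :=
  fun σ => GrowthInf.mul (hF σ) (hG σ)

theorem const (c : ℂ) : ModGrowth (fun _ => c) := fun _ => GrowthInf.const c

theorem one : ModGrowth (1 : ℍ → ℂ) := const 1

theorem pow (hF : ModGrowth F) (n : ℕ) : ModGrowth (F ^ n) := fun σ => GrowthInf.pow (hF σ) n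

theorem smul (hF : ModGrowth F) (γ : SL(2, ℤ)) : ModGrowth (fun τ => F (γ • τ)) := by
  intro σ
  have := hF (γ * σ)
  simpa only [mul_smul] using this

theorem prod {ι : Type*} (s : Finset ι) {F : ι → ℍ → ℂ} (h : ∀ i ∈ s, ModGrowth (F i)) :
    ModGrowth (∏ i ∈ s, F i) := by
  classical
  induction s using Finset.induction_on with
  | empty => simpa using! one
  | insert a s ha ih =>
    rw [Finset.prod_insert ha]
    exact (h a (Finset.mem_insert_self _ _)).mul (ih fun i hi => h i (Finset.mem_insert_of_mem hi))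

end ModGrowth

/-- A function with a Laurent expansion in `exp (2πiτ/h)` has at most exponential growth. -/
theorem LExp_growthInf {h : ℝ} (hh : 0 < h) {f : ℍ → ℂ} {G : LaurentSeries ℂ} (hf : LExp h f G) :
    GrowthInf f := by
  obtain ⟨k, hk⟩ : ∃ k : ℕ, ∀ n < -(k : ℤ), G.coeff n = 0 := by
    refine ⟨(-G.order).toNat, fun n hn => HahnSeries.coeff_eq_zero_of_lt_order ?_⟩
    have := Int.self_le_toNat (-G.order)
    omega
  have hnorm : ∀ τ : ℍ, ‖𝕢 h (τ : ℂ)‖ = Real.exp (-2 * Real.pi * τ.im / h) := fun τ =>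
    Function.Periodic.norm_qParam h τ
  set r : ℝ := Real.exp (-2 * Real.pi * 1 / h) with hr
  have hI := hf.hasSum_nat hk UpperHalfPlane.I
  have hsum : Summable (fun j : ℕ => ‖G.coeff (-(k : ℤ) + j)‖ * r ^ j) := by
    have h1 := hI.summable.norm
    refine h1.congr fun j => ?_
    rw [smul_eq_mul, norm_mul, norm_pow, hnorm]
    simp [hr]
  set C : ℝ := ∑' j : ℕ, ‖G.coeff (-(k : ℤ) + j)‖ * r ^ j with hC
  obtain ⟨m, hm⟩ := exists_nat_ge (2 * Real.pi * k / h)
  refine ⟨m, IsBigO.of_bound C ?_⟩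
  filter_upwards [(atImInfty_mem _).mpr ⟨1, fun τ hτ => hτ⟩] with τ hτ
  have hτ' : (1 : ℝ) ≤ τ.im := hτ
  have h2 := hf.hasSum_nat hk τ
  have hle : ‖𝕢 h (τ : ℂ)‖ ≤ r := by
    rw [hnorm, hr]
    refine Real.exp_le_exp.mpr ?_
    rw [div_le_div_iff_of_pos_right hh]
    have := Real.pi_pos
    nlinarith
  have h3 : ‖𝕢 h (τ : ℂ) ^ (-(-(k : ℤ))) * f τ‖ ≤ C := by
    rw [← h2.tsum_eq, hC]
    refine tsum_of_norm_bounded hsum.hasSum fun j => ?_
    rw [smul_eq_mul, norm_mul, norm_pow]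
    gcongr
  rw [norm_mul, neg_neg, zpow_natCast, norm_pow, hnorm] at h3
  rw [Real.norm_of_nonneg (Real.exp_pos _).le]
  have h4 : Real.exp (-2 * Real.pi * τ.im / h) ^ k * Real.exp (2 * Real.pi * k / h * τ.im) = 1 := by
    rw [← Real.exp_nat_mul, ← Real.exp_add, Real.exp_eq_one_iff]
    ring
  have h5 : ‖f τ‖ ≤ C * Real.exp (2 * Real.pi * k / h * τ.im) := by
    calc ‖f τ‖ = (Real.exp (-2 * Real.pi * τ.im / h) ^ k * ‖f τ‖) *
        Real.exp (2 * Real.pi * k / h * τ.im) := by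
          rw [mul_right_comm, h4, one_mul]
      _ ≤ C * Real.exp (2 * Real.pi * k / h * τ.im) := by gcongr
  have hC0 : 0 ≤ C := tsum_nonneg fun j => by positivity
  refine h5.trans (mul_le_mul_of_nonneg_left ?_ hC0)
  exact Real.exp_le_exp.mpr (mul_le_mul_of_nonneg_right hm τ.im_pos.le)

/-- Exponential growth is compensated by a power of `Δ`. -/
theorem GrowthInf.bounded_mul_disc {F : ℍ → ℂ} (hF : GrowthInf F) :
    ∃ M : ℕ, IsBoundedAtImInfty (F * (discriminant : ℍ → ℂ) ^ M) := by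
  obtain ⟨m, hm⟩ := hF
  have hd := CuspFormClass.exp_decay_atImInfty (h := 1) CuspForm.discriminant one_pos
    one_mem_strictPeriods_SL
  refine ⟨m, ?_⟩
  have h1 : ((discriminant : ℍ → ℂ) ^ m) =O[atImInfty]
      (fun τ : ℍ => Real.exp (-2 * Real.pi * τ.im / 1) ^ m) := hd.pow m
  refine (hm.mul h1).trans (IsBigO.of_norm_le fun τ => ?_)
  rw [← Real.exp_nat_mul, ← Real.exp_add, Real.norm_of_nonneg (Real.exp_pos _).le]
  simp only [Pi.one_apply]
  rw [Real.exp_le_one_iff]
  have h3 : (0 : ℝ) ≤ m * τ.im := by positivity [τ.im_pos]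
  have h4 := Real.pi_gt_three
  rw [div_one]
  nlinarith

theorem ModGrowth.mem_polInf {F : ℍ → ℂ} (hF : ModGrowth F) (hd : MDiff F) (σ : SL(2, ℤ)) :
    (fun τ : ℍ => F (σ • τ)) ∈ polInf := by
  refine ⟨?_, GrowthInf.bounded_mul_disc (hF σ)⟩
  exact hd.comp (UpperHalfPlane.mdifferentiable_smul (by simp))

end Fermat.Agent.ModFun
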