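import Mathlib
import Fermat.Prelude.Def_ModularCurve_X0ModL
import Fermat.Agent.Igusa.DeltaQ
import Fermat.Agent.X0Emb.Hermite
import Fermat.Agent.ModFun.Basic

/-!
# The functions `j(dτ)`
-/

set_option autoImplicit false

open UpperHalfPlane hiding I
open ModularForm Matrix.SpecialLinearGroup Filter Asymptotics CongruenceSubgroup
open scoped MatrixGroups Manifold ModularForm Polynomial Topology

noncomputable section

namespace Fermat.Agent.ModFun

open Fermat.Agent.JLevelOne Fermat.Agent.IntStruct Fermat.Agent.X0Emb ModularCurve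

local notation "𝕢" => Function.Periodic.qParam

theorem lexp_j : LExp 1 jFun (jqModC ℂ) := Igusa.hasLExp_jFun

theorem zetaU_zero (d : ℕ) : zetaU 0 d = 1 := by
  ext
  simp [zetaU]

theorem twist_one {R : Type*} [CommRing R] (G : LaurentSeries R) : twist (1 : Rˣ) G = G := by
  ext n
  simp

/-- The affine maps are holomorphic. -/
theorem mdiff_comp_aff {F : ℍ → ℂ} (hF : MDiff F) (a b d : ℕ) [NeZero a] [NeZero d] :
    MDiff (fun τ => F (aff a b d τ)) := by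
  rw [UpperHalfPlane.mdifferentiable_iff] at hF ⊢
  have ha : (0 : ℝ) < a := by exact_mod_cast Nat.pos_of_ne_zero (NeZero.ne a)
  have hd : (0 : ℝ) < d := by exact_mod_cast Nat.pos_of_ne_zero (NeZero.ne d)
  have hmaps : Set.MapsTo (fun z : ℂ => ((a : ℂ) * z + b) / d) {z : ℂ | 0 < z.im}
      {z : ℂ | 0 < z.im} := by
    intro z hz
    have hz' : 0 < z.im := hz
    have : (((a : ℂ) * z + b) / d).im = a * z.im / d := by
      rw [Complex.div_natCast_im]; simp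
    show 0 < (((a : ℂ) * z + b) / d).im
    rw [this]
    exact div_pos (mul_pos ha hz') hd
  have h1 : DifferentiableOn ℂ (fun z : ℂ => ((a : ℂ) * z + b) / d) {z : ℂ | 0 < z.im} := by
    fun_prop
  refine (hF.comp h1 hmaps).congr fun z hz => ?_
  have hz' : 0 < z.im := hz
  show F (aff a b d (ofComplex z)) = F (ofComplex (((a : ℂ) * z + b) / d))
  rw [ofComplex_apply_of_im_pos hz', ofComplex_apply_of_im_pos (hmaps hz)]
  congr 1

/-- `j(dτ)`. -/
def jd (d : ℕ) [NeZero d] (τ : ℍ) : ℂ := jFun (aff d 0 1 τ)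

theorem jd_one : jd 1 = jFun := by
  funext τ
  have : aff 1 0 1 τ = τ := by ext; simp
  rw [jd, this]

theorem lexp_jd (d : ℕ) [NeZero d] : LExp 1 (jd d) (qExpand ℂ d (jqModC ℂ)) := by
  have h := lexp_j.aff d 0 1 d 1 (by ring)
  rw [zetaU_zero, twist_one, Nat.cast_one] at h
  exact h

theorem jd_mdiff (d : ℕ) [NeZero d] : MDiff (jd d) := mdiff_comp_aff jFun_mdiff d 0 1

theorem jd_inv {N d : ℕ} [NeZero d] (hd : d ∣ N) (γ : SL(2, ℤ)) (hγ : γ ∈ Gamma0 N) (τ : ℍ) :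
    jd d (γ • τ) = jd d τ := by
  obtain ⟨g', hg'⟩ := exists_aff_smul_of_mem_Gamma0 N d hd γ hγ
  rw [jd, hg', jFun_smul]
  rfl

/-- The conjugates of `j(dτ)` have Laurent expansions. -/
theorem exists_lexp_jd_smul (d : ℕ) [NeZero d] (σ : SL(2, ℤ)) :
    ∃ (a b d' : ℕ) (_ : NeZero a) (_ : NeZero d'), a * d' = d ∧ b < d' ∧
      (∀ τ : ℍ, jd d (σ • τ) = jFun (aff a b d' τ)) ∧
      ∃ g' : SL(2, ℤ), ∀ τ : ℍ, aff d 0 1 (σ • τ) = g' • aff a b d' τ := by
  obtain ⟨a, b, d', ha, hd', g', h1, h2, h3⟩ := exists_hermite d σ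
  exact ⟨a, b, d', ha, hd', h1, h2, fun τ => by rw [jd, h3, jFun_smul], g', h3⟩

theorem lexp_j_aff (a b d' : ℕ) [NeZero a] [NeZero d'] [NeZero (a * d')] :
    LExp (a * d' : ℕ) (fun τ => jFun (aff a b d' τ))
      (@qExpand ℂ _ (a * a) ⟨mul_ne_zero (NeZero.ne a) (NeZero.ne a)⟩
        (twist (zetaU b d') (jqModC ℂ))) := by
  have : NeZero (a * a) := ⟨mul_ne_zero (NeZero.ne a) (NeZero.ne a)⟩
  exact lexp_j.aff a b d' (a * a) (a * d') (by ring)

theorem jd_growth (d : ℕ) [NeZero d] : ModGrowth (jd d) := by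
  intro σ
  obtain ⟨a, b, d', ha, hd', h1, -, h3, -⟩ := exists_lexp_jd_smul d σ
  have : NeZero (a * d') := ⟨mul_ne_zero (NeZero.ne a) (NeZero.ne d')⟩
  have hpos : (0 : ℝ) < ((a * d' : ℕ) : ℝ) := by
    exact_mod_cast Nat.pos_of_ne_zero (NeZero.ne (a * d'))
  have h4 := LExp_growthInf hpos (lexp_j_aff a b d')
  have h5 : (fun τ : ℍ => jd d (σ • τ)) = fun τ => jFun (aff a b d' τ) := funext h3
  rw [h5]
  exact h4

theorem isModFun_of {N : ℕ} {F : ℍ → ℂ} (hF : MDiff F)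
    (hinv : ∀ γ ∈ Gamma0 N, ∀ τ : ℍ, F (γ • τ) = F τ) (hg : ModGrowth F) :
    IsModFun (Gamma0 N) F where
  inv := hinv
  conj σ := hg.mem_polInf hF σ

theorem isModFun_jd {N d : ℕ} [NeZero d] (hd : d ∣ N) : IsModFun (Gamma0 N) (jd d) :=
  isModFun_of (jd_mdiff d) (fun γ hγ τ => jd_inv hd γ hγ τ) (jd_growth d)

/-- The stabiliser of `j(Nτ)` is `Γ₀(N)`. -/
theorem mem_Gamma0_of_jd (N : ℕ) [NeZero N] (σ : SL(2, ℤ))
    (h : ∀ τ : ℍ, jd N (σ • τ) = jd N τ) : σ ∈ Gamma0 N := by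
  obtain ⟨a, b, d', ha, hd', h1, -, h3, g', h4⟩ := exists_lexp_jd_smul N σ
  have : NeZero (a * d') := ⟨mul_ne_zero (NeZero.ne a) (NeZero.ne d')⟩
  have : NeZero (a * a) := ⟨mul_ne_zero (NeZero.ne a) (NeZero.ne a)⟩
  have : NeZero (N * N) := ⟨mul_ne_zero (NeZero.ne N) (NeZero.ne N)⟩
  have hpos : (0 : ℝ) < ((N : ℕ) : ℝ) := by
    exact_mod_cast Nat.pos_of_ne_zero (NeZero.ne N)
  have e1 : LExp N (fun τ => jFun (aff a b d' τ))
      (qExpand ℂ (a * a) (twist (zetaU b d') (jqModC ℂ))) :=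
    lexp_j.aff a b d' (a * a) N (by rw [← h1]; ring)
  have e2 : LExp N (fun τ => jFun (aff N 0 1 τ))
      (qExpand ℂ (N * N) (twist (zetaU 0 1) (jqModC ℂ))) :=
    lexp_j.aff N 0 1 (N * N) N (by ring)
  have e3 : (fun τ : ℍ => jFun (aff N 0 1 τ)) = fun τ => jFun (aff a b d' τ) := by
    funext τ
    rw [← h3, h]
    rfl
  rw [e3] at e2
  have e4 := e1.unique hpos e2
  have e5 := congrArg (fun G : LaurentSeries ℂ => G.coeff (((a * a : ℕ) : ℤ) * (-1))) e4
  simp only [qExpand_coeff_mul, twist_coeff, coeff_jqModC_neg_one, mul_one] at e5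
  have e6 : ((N * N : ℕ) : ℤ) ∣ (((a * a : ℕ) : ℤ) * (-1)) := by
    by_contra hndvd
    rw [qExpand_coeff_of_not_dvd (N * N) _ hndvd] at e5
    exact Units.ne_zero _ e5
  have e7 : N * N ∣ a * a := by
    rw [mul_neg_one, dvd_neg] at e6
    exact_mod_cast e6
  have e8 : N ∣ a := by
    rw [← sq, ← sq] at e7
    exact (Nat.pow_dvd_pow_iff two_ne_zero).mp e7
  have e9 : a = N := Nat.dvd_antisymm ⟨d', h1.symm⟩ e8
  have e10 : d' = 1 := by
    have hN : 0 < N := Nat.pos_of_ne_zero (NeZero.ne N)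
    have : N * d' = N * 1 := by rw [mul_one]; nth_rewrite 1 [← e9]; exact h1
    exact Nat.eq_of_mul_eq_mul_left hN this
  subst e10
  subst e9
  exact mem_Gamma0_of_aff_eq a b σ g' h4

end Fermat.Agent.ModFun
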