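import Mathlib
import Fermat.Prelude.Def_ModularCurve_X0ModL
import Fermat.Prelude.Def_ModularCurve_ArithmeticGalois
import Fermat.Agent.ModFun.JN
import Fermat.Agent.ModFun.Descent

/-!
# Modular functions with algebraic Fourier coefficients are in the function field
-/

set_option autoImplicit false

open UpperHalfPlane hiding I
open ModularForm Matrix.SpecialLinearGroup Filter Asymptotics CongruenceSubgroup
open scoped MatrixGroups Manifold ModularForm Polynomial Topology

noncomputable section

namespace Fermat.Agent.ModFun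

open Fermat.Agent.JLevelOne Fermat.Agent.IntStruct Fermat.Agent.X0Emb ModularCurve

section LExpSum

variable {h : ℝ}

theorem lexp_pow {f : ℍ → ℂ} {F : LaurentSeries ℂ} (hf : LExp h f F) (n : ℕ) :
    LExp h (f ^ n) (F ^ n) := by
  induction n with
  | zero => simpa using LExp.one h
  | succ n ih => rw [pow_succ, pow_succ]; exact ih.mul hf

theorem lexp_sum {ι : Type*} (s : Finset ι) {f : ι → ℍ → ℂ} {F : ι → LaurentSeries ℂ}
    (hf : ∀ i ∈ s, LExp h (f i) (F i)) : LExp h (∑ i ∈ s, f i) (∑ i ∈ s, F i) := by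
  classical
  induction s using Finset.induction_on with
  | empty => simpa using LExp.zero h
  | insert a s ha ih =>
    rw [Finset.sum_insert ha, Finset.sum_insert ha]
    exact (hf a (Finset.mem_insert_self _ _)).add
      (ih fun i hi => hf i (Finset.mem_insert_of_mem hi))

theorem lexp_prod {ι : Type*} (s : Finset ι) {f : ι → ℍ → ℂ} {F : ι → LaurentSeries ℂ}
    (hf : ∀ i ∈ s, LExp h (f i) (F i)) : LExp h (∏ i ∈ s, f i) (∏ i ∈ s, F i) := by
  classical
  induction s using Finset.induction_on with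
  | empty => simpa using LExp.one h
  | insert a s ha ih =>
    rw [Finset.prod_insert ha, Finset.prod_insert ha]
    exact (hf a (Finset.mem_insert_self _ _)).mul
      (ih fun i hi => hf i (Finset.mem_insert_of_mem hi))

theorem lexp_eval {f : ℍ → ℂ} {F : LaurentSeries ℂ} (hf : LExp h f F) (P : ℂ[X]) :
    LExp h (fun τ => P.eval (f τ)) (Polynomial.aeval F P) := by
  induction P using Polynomial.induction_on' with
  | add P Q hP hQ =>
    have := hP.add hQ
    rw [map_add]
    convert! this using 1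
    funext τ
    simp
  | monomial n c =>
    have := (LExp.const h c).mul (lexp_pow hf n)
    rw [Polynomial.aeval_monomial, algebraMap_laurentSeries_eq_single]
    convert! this using 1
    funext τ
    simp

end LExpSum

/-- The converse theorem: a holomorphic `Γ₀(N)`-invariant function on `ℍ`, meromorphic at the cusps,
whose Fourier coefficients are in the subfield `K` of `ℂ`, is in `K(j(q), j(q^N))`. -/
theorem mem_modularFunctionFieldC {K : Type*} [Field K] (N : ℕ) [NeZero N] (ι : K →+* ℂ)
    {F : ℍ → ℂ} (hF : MDiff F) (hinv : ∀ γ ∈ Gamma0 N, ∀ τ : ℍ, F (γ • τ) = F τ)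
    (hg : ModGrowth F) {G : LaurentSeries K} (hL : LExp 1 F (coeffMap ι G)) :
    G ∈ modularFunctionFieldC K N := by
  obtain ⟨n, n', P, Q, hPQ, τ₀, hτ₀⟩ := exists_interp_modFun (isModFun_jd (dvd_refl N))
    (mem_Gamma0_of_jd N) (isModFun_of hF hinv hg)
  have hv : LExp 1 (jd N) (qExpand ℂ N (jqModC ℂ)) := lexp_jd N
  have hsum : ∀ (n : ℕ) (P : ℕ → ℂ[X]), LExp 1
      (fun τ => ∑ i ∈ Finset.range n, (P i).eval (jFun τ) * jd N τ ^ i)
      (∑ i ∈ Finset.range n, Polynomial.aeval (jqModC ℂ) (P i) *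
        (qExpand ℂ N (jqModC ℂ)) ^ i) := by
    intro n P
    have := lexp_sum (Finset.range n) (f := fun i τ => (P i).eval (jFun τ) * jd N τ ^ i)
      (F := fun i => Polynomial.aeval (jqModC ℂ) (P i) * (qExpand ℂ N (jqModC ℂ)) ^ i)
      fun i _ => (lexp_eval lexp_j (P i)).mul (lexp_pow hv i)
    convert! this using 1
    funext τ
    simp
  have hP' := hsum n P
  have hQ' := hsum n' Q
  set P' := ∑ i ∈ Finset.range n, Polynomial.aeval (jqModC ℂ) (P i) *
        (qExpand ℂ N (jqModC ℂ)) ^ i with hP'def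
  set Q' := ∑ i ∈ Finset.range n', Polynomial.aeval (jqModC ℂ) (Q i) *
        (qExpand ℂ N (jqModC ℂ)) ^ i with hQ'def
  have hmul := hL.mul hQ'
  have hfun : (F * fun τ => ∑ i ∈ Finset.range n', (Q i).eval (jFun τ) * jd N τ ^ i) =
      fun τ => ∑ i ∈ Finset.range n, (P i).eval (jFun τ) * jd N τ ^ i := by
    funext τ
    exact hPQ τ
  rw [hfun] at hmul
  have hrel : coeffMap ι G * Q' = P' := hmul.unique one_pos hP'
  have hQ0 : Q' ≠ 0 := by
    intro h0
    rw [h0] at hQ'
    have := congrFun (hQ'.funext (LExp.zero 1)) τ₀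
    exact hτ₀ this
  have hJ : jqModC ℂ ∈ Algebra.adjoin ℂ (coeffMap ι '' {jqModC K, jqNModC K N}) :=
    Algebra.subset_adjoin ⟨jqModC K, Set.mem_insert _ _, coeffMap_jqModC ι⟩
  have hV : qExpand ℂ N (jqModC ℂ) ∈
      Algebra.adjoin ℂ (coeffMap ι '' {jqModC K, jqNModC K N}) :=
    Algebra.subset_adjoin ⟨jqNModC K N, Set.mem_insert_of_mem _ rfl, coeffMap_jqNModC ι N⟩
  have hmem : ∀ (n : ℕ) (P : ℕ → ℂ[X]), ∑ i ∈ Finset.range n,
      Polynomial.aeval (jqModC ℂ) (P i) * (qExpand ℂ N (jqModC ℂ)) ^ i ∈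
      Algebra.adjoin ℂ (coeffMap ι '' {jqModC K, jqNModC K N}) := by
    intro n P
    refine sum_mem fun i _ => mul_mem ?_ (pow_mem hV i)
    exact Algebra.adjoin_le (Set.singleton_subset_iff.mpr hJ)
      (Polynomial.aeval_mem_adjoin_singleton ℂ (jqModC ℂ))
  exact mem_adjoin_of_relation' ι {jqModC K, jqNModC K N} G (hmem n P) (hmem n' Q) hQ0 hrel

/-- `modularFunctionFieldFullC` is the base change of `modularFunctionFieldFull`. -/
theorem laurentBaseChange_eq (L : Type*) [Field L] [Algebra ℚ L] (N : ℕ) :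
    laurentBaseChange L (modularFunctionFieldFull N) = modularFunctionFieldFullC L N := by
  have hgen : ∀ (d : ℕ) (_ : NeZero d), coeffEmb L (qExpand ℚ d jq) = qExpand L d (jqModC L) := by
    intro d hd
    rw [coeffEmb, coeffMap_qExpand, ← jqModC_rat, coeffMap_jqModC]
  apply le_antisymm
  · rw [laurentBaseChange, IntermediateField.adjoin_le_iff]
    rintro _ ⟨x, hx, rfl⟩
    have hle : (modularFunctionFieldFull N).toSubfield ≤
        (modularFunctionFieldFullC L N).toSubfield.comap (coeffEmb L) := by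
      rw [modularFunctionFieldFull, IntermediateField.adjoin_toSubfield, Subfield.closure_le]
      rintro y (⟨c, rfl⟩ | ⟨d, hd, hdN, rfl⟩)
      · rw [SetLike.mem_coe, Subfield.mem_comap]
        have : coeffEmb L (algebraMap ℚ (LaurentSeries ℚ) c) =
            algebraMap L (LaurentSeries L) (algebraMap ℚ L c) := by
          rw [algebraMap_laurentSeries_eq_single, algebraMap_laurentSeries_eq_single, coeffEmb,
            coeffMap_single]
        rw [this]
        exact (modularFunctionFieldFullC L N).algebraMap_mem _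
      · rw [SetLike.mem_coe, Subfield.mem_comap, hgen d hd]
        exact jqModCd_mem_full L N hdN
    exact hle hx
  · rw [modularFunctionFieldFullC, IntermediateField.adjoin_le_iff]
    rintro _ ⟨d, hd, hdN, rfl⟩
    rw [← hgen d hd]
    exact coeffEmb_mem_laurentBaseChange L (jqd_mem_full N hdN)

/-- (CONV) -/
theorem mem_modularFunctionFieldBar (N : ℕ) [NeZero N] (ι : AlgebraicClosure ℚ →+* ℂ)
    {F : ℍ → ℂ} (hF : MDiff F) (hinv : ∀ γ ∈ Gamma0 N, ∀ τ : ℍ, F (γ • τ) = F τ)
    (hg : ModGrowth F) {G : LaurentSeries (AlgebraicClosure ℚ)} (hL : LExp 1 F (coeffMap ι G)) :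
    G ∈ modularFunctionFieldBar N := by
  have h1 := mem_modularFunctionFieldC N ι hF hinv hg hL
  have h2 := modularFunctionFieldC_le_full (AlgebraicClosure ℚ) N h1
  rwa [modularFunctionFieldBar, laurentBaseChange_eq]

end Fermat.Agent.ModFun
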