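import Mathlib
import Fermat.Prelude.Def_ModularCurve_LaurentCoeff

/-!
# `n`-th roots of Laurent series
-/

set_option autoImplicit false

noncomputable section

namespace Fermat.Agent.ModFun

open ModularCurve PowerSeries

theorem binomialSeries_mul_nat {K : Type*} [Field K] [CharZero K] (r : ℚ) (m : ℕ) :
    binomialSeries K ((m : ℚ) * r) = binomialSeries K r ^ m := by
  induction m with
  | zero => simp
  | succ m ih =>
    rw [pow_succ, ← ih, ← binomialSeries_add]
    congr 1
    push_cast; ring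

theorem exists_pow_eq_of_constantCoeff_one {K : Type*} [Field K] [CharZero K] {n : ℕ} (hn : n ≠ 0)
    (u : PowerSeries K) (hu : constantCoeff u = 1) : ∃ w : PowerSeries K, w ^ n = u := by
  have hsub : HasSubst (u - 1) := HasSubst.of_constantCoeff_zero' (by simp [hu])
  refine ⟨(binomialSeries K ((n : ℚ)⁻¹)).subst (u - 1), ?_⟩
  have hn' : (n : ℚ) ≠ 0 := by exact_mod_cast hn
  have h1 : binomialSeries K ((n : ℚ)⁻¹) ^ n = 1 + X := by
    rw [← binomialSeries_mul_nat, mul_inv_cancel₀ hn']
    have := binomialSeries_nat (R := ℚ) (A := K) 1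
    simpa using this
  rw [← subst_pow hsub, h1, subst_add hsub, subst_X hsub]
  have h2 : (1 : PowerSeries K).subst (u - 1) = (1 : PowerSeries K) := by
    have := map_one (substAlgHom (R := K) hsub)
    rwa [coe_substAlgHom] at this
  rw [h2]
  ring

theorem exists_pow_eq_laurent {K : Type*} [Field K] [CharZero K] [IsAlgClosed K] {n : ℕ}
    (hn : n ≠ 0) {h : LaurentSeries K} (hh : h ≠ 0) {m : ℤ} (ho : h.order = n * m) :
    ∃ H : LaurentSeries K, H ^ n = h := by
  set P := h.powerSeriesPart with hP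
  have hc : constantCoeff P ≠ 0 := by
    rw [← coeff_zero_eq_constantCoeff_apply, hP, LaurentSeries.powerSeriesPart_coeff]
    simpa using! HahnSeries.coeff_order_eq_zero.not.mpr hh
  set c := constantCoeff P with hcdef
  obtain ⟨c₀, hc₀⟩ := IsAlgClosed.exists_pow_nat_eq c (Nat.pos_of_ne_zero hn)
  obtain ⟨w, hw⟩ := exists_pow_eq_of_constantCoeff_one hn (C c⁻¹ * P) (by
    rw [map_mul, constantCoeff_C, ← hcdef, inv_mul_cancel₀ hc])
  refine ⟨HahnSeries.single m c₀ * HahnSeries.ofPowerSeries ℤ K w, ?_⟩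
  rw [mul_pow, HahnSeries.single_pow, hc₀, ← map_pow (HahnSeries.ofPowerSeries ℤ K), hw, map_mul,
    HahnSeries.ofPowerSeries_C, ← mul_assoc]
  have h1 : HahnSeries.single (n • m) c * HahnSeries.C c⁻¹ = HahnSeries.single h.order 1 := by
    rw [HahnSeries.C_apply, HahnSeries.single_mul_single, add_zero, mul_inv_cancel₀ hc, ho,
      nsmul_eq_mul]
  rw [h1]
  exact LaurentSeries.single_order_mul_powerSeriesPart h

theorem coeffMap_order {K L : Type*} [Field K] [Field L] (ι : K →+* L) {h : LaurentSeries K}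
    (hh : h ≠ 0) : (coeffMap ι h).order = h.order := by
  have h1 : (coeffMap ι h).coeff h.order ≠ 0 := by
    rw [coeffMap_coeff]
    exact (map_ne_zero ι).mpr (HahnSeries.coeff_order_eq_zero.not.mpr hh)
  apply le_antisymm
  · exact HahnSeries.order_le_of_coeff_ne_zero h1
  · have h0 : coeffMap ι h ≠ 0 := fun h0 => h1 (by rw [h0, HahnSeries.coeff_zero])
    by_contra hlt
    push Not at hlt
    have h2 : (coeffMap ι h).coeff (coeffMap ι h).order = 0 := by
      rw [coeffMap_coeff, HahnSeries.coeff_eq_zero_of_lt_order hlt, map_zero]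
    exact (HahnSeries.coeff_order_eq_zero.not.mpr h0) h2

theorem order_pow' {L : Type*} [Field L] {G : LaurentSeries L} (hG : G ≠ 0) (n : ℕ) :
    (G ^ n).order = n * G.order := by
  induction n with
  | zero => simp
  | succ n ih =>
    rw [pow_succ, HahnSeries.order_mul (pow_ne_zero n hG) hG, ih]
    push_cast; ring

/-- (RT) an `n`-th root of a Laurent series with coefficients in an algebraically closed subfield
has coefficients in this subfield. -/
theorem exists_coeffMap_of_pow_eq {K L : Type*} [Field K] [Field L] [CharZero K] [IsAlgClosed K]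
    (ι : K →+* L) {n : ℕ} (hn : n ≠ 0) {G : LaurentSeries L} {h : LaurentSeries K}
    (hG : G ^ n = coeffMap ι h) : ∃ G₀ : LaurentSeries K, G = coeffMap ι G₀ := by
  by_cases hh : h = 0
  · subst hh
    rw [map_zero] at hG
    exact ⟨0, by rw [map_zero]; exact pow_eq_zero_iff hn |>.mp hG⟩
  have hinj : Function.Injective (coeffMap ι) := (coeffMap ι).injective
  have hh' : coeffMap ι h ≠ 0 := fun h0 => hh (hinj (by rw [h0, map_zero]))
  have hG0 : G ≠ 0 := by
    rintro rfl
    rw [zero_pow hn] at hG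
    exact hh' hG.symm
  have ho : h.order = n * G.order := by
    rw [← coeffMap_order ι hh, ← hG, order_pow' hG0]
  obtain ⟨H, hH⟩ := exists_pow_eq_laurent hn hh ho
  have hH0 : H ≠ 0 := by
    rintro rfl
    rw [zero_pow hn] at hH
    exact hh hH.symm
  have hH0' : coeffMap ι H ≠ 0 := fun h0 => hH0 (hinj (by rw [h0, map_zero]))
  have : NeZero (n : K) := ⟨by exact_mod_cast hn⟩
  have : NeZero n := ⟨hn⟩
  obtain ⟨ζ, hζ⟩ := HasEnoughRootsOfUnity.exists_primitiveRoot K n
  have hζ' : IsPrimitiveRoot (coeffMap ι (HahnSeries.C ζ)) n :=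
    (hζ.map_of_injective (f := (HahnSeries.C : K →+* LaurentSeries K))
      HahnSeries.C_injective).map_of_injective hinj
  have h1 : (G / coeffMap ι H) ^ n = 1 := by
    rw [div_pow, hG, ← map_pow, hH, div_self hh']
  obtain ⟨i, -, hi⟩ := hζ'.eq_pow_of_pow_eq_one h1
  refine ⟨HahnSeries.C ζ ^ i * H, ?_⟩
  rw [map_mul, map_pow, hi, div_mul_cancel₀ _ hH0']

end Fermat.Agent.ModFun
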