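import Mathlib
import Fermat.Agent.ModFun.Conv
import Fermat.Agent.ModFun.RootSeries

/-!
# Elements of the function field of `X₀(N)` represented by functions on the upper half plane
-/

set_option autoImplicit false

open UpperHalfPlane hiding I
open ModularForm Matrix.SpecialLinearGroup Filter Asymptotics CongruenceSubgroup
open scoped MatrixGroups Manifold ModularForm Polynomial Topology

noncomputable section

namespace Fermat.Agent.ModFun

open Fermat.Agent.JLevelOne Fermat.Agent.IntStruct Fermat.Agent.X0Emb ModularCurve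

/-- `F` is a `Γ₀(N)`-invariant holomorphic function, meromorphic at the cusps, with Laurent
expansion `y`. -/
structure Rep (N : ℕ) {K : Type*} [Field K] (ι : K →+* ℂ) (y : LaurentSeries K) (F : ℍ → ℂ) :
    Prop where
  mdiff : MDiff F
  inv : ∀ γ ∈ Gamma0 N, ∀ τ : ℍ, F (γ • τ) = F τ
  growth : ModGrowth F
  lexp : LExp 1 F (coeffMap ι y)

namespace Rep

variable {N : ℕ} {K : Type*} [Field K] {ι : K →+* ℂ} {x y : LaurentSeries K} {F G : ℍ → ℂ}

theorem add (hx : Rep N ι x F) (hy : Rep N ι y G) : Rep N ι (x + y) (F + G) where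
  mdiff := hx.mdiff.add hy.mdiff
  inv γ hγ τ := by simp only [Pi.add_apply, hx.inv γ hγ, hy.inv γ hγ]
  growth := hx.growth.add hy.growth
  lexp := by rw [map_add]; exact hx.lexp.add hy.lexp

theorem mul (hx : Rep N ι x F) (hy : Rep N ι y G) : Rep N ι (x * y) (F * G) where
  mdiff := hx.mdiff.mul hy.mdiff
  inv γ hγ τ := by simp only [Pi.mul_apply, hx.inv γ hγ, hy.inv γ hγ]
  growth := hx.growth.mul hy.growth
  lexp := by rw [map_mul]; exact hx.lexp.mul hy.lexp

theorem const (c : K) : Rep N ι (algebraMap K (LaurentSeries K) c) (fun _ => ι c) where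
  mdiff := mdifferentiable_const
  inv _ _ _ := rfl
  growth := ModGrowth.const _
  lexp := by
    rw [algebraMap_laurentSeries_eq_single, coeffMap_single]
    exact LExp.const 1 (ι c)

theorem one : Rep N ι (1 : LaurentSeries K) (1 : ℍ → ℂ) where
  mdiff := mdifferentiable_const
  inv _ _ _ := rfl
  growth := ModGrowth.one
  lexp := by rw [map_one]; exact LExp.one 1

theorem pow (hx : Rep N ι x F) (n : ℕ) : Rep N ι (x ^ n) (F ^ n) := by
  induction n with
  | zero => simpa using one
  | succ n ih => rw [pow_succ, pow_succ]; exact ih.mul hx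

theorem unique (hx : Rep N ι x F) (hy : Rep N ι x G) : F = G :=
  hx.lexp.funext hy.lexp

theorem unique_left (hx : Rep N ι x F) (hy : Rep N ι y F) : x = y :=
  (coeffMap ι).injective (hx.lexp.unique one_pos hy.lexp)

theorem eq_zero_iff (hx : Rep N ι x F) : x = 0 ↔ F = 0 := by
  constructor
  · rintro rfl
    have h := hx.lexp
    rw [map_zero] at h
    exact h.funext (LExp.zero 1)
  · rintro rfl
    exact (coeffMap ι).injective ((hx.lexp.eq_zero one_pos).trans (map_zero _).symm)

theorem jd (N : ℕ) (d : ℕ) [NeZero d] (hd : d ∣ N) :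
    Rep N ι (qExpand K d (jqModC K)) (ModFun.jd d) where
  mdiff := jd_mdiff d
  inv γ hγ τ := jd_inv hd γ hγ τ
  growth := jd_growth d
  lexp := by
    rw [coeffMap_qExpand, coeffMap_jqModC]
    exact lexp_jd d

theorem mem_fullC [NeZero N] (hx : Rep N ι x F) : x ∈ modularFunctionFieldFullC K N :=
  modularFunctionFieldC_le_full K N (mem_modularFunctionFieldC N ι hx.mdiff hx.inv hx.growth hx.lexp)

theorem mem_bar [NeZero N] {ι : AlgebraicClosure ℚ →+* ℂ} {x : LaurentSeries (AlgebraicClosure ℚ)}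
    (hx : Rep N ι x F) : x ∈ modularFunctionFieldBar N :=
  mem_modularFunctionFieldBar N ι hx.mdiff hx.inv hx.growth hx.lexp

end Rep

/-- The algebra of all `y` which are represented by a holomorphic function on `ℍ`. -/
def repAlg (N : ℕ) {K : Type*} [Field K] (ι : K →+* ℂ) : Subalgebra K (LaurentSeries K) where
  carrier := {y | ∃ F, Rep N ι y F}
  mul_mem' := by
    rintro a b ⟨F, hF⟩ ⟨G, hG⟩
    exact ⟨F * G, hF.mul hG⟩
  add_mem' := by
    rintro a b ⟨F, hF⟩ ⟨G, hG⟩
    exact ⟨F + G, hF.add hG⟩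
  algebraMap_mem' c := ⟨_, Rep.const c⟩

/-- (CONV0) every element of the function field is a quotient of represented elements. -/
theorem exists_rep_frac (N : ℕ) {K : Type*} [Field K] (ι : K →+* ℂ) {y : LaurentSeries K}
    (hy : y ∈ modularFunctionFieldFullC K N) :
    ∃ (u v : LaurentSeries K) (U V : ℍ → ℂ), v ≠ 0 ∧ y * v = u ∧ Rep N ι u U ∧ Rep N ι v V := by
  rw [modularFunctionFieldFullC, IntermediateField.mem_adjoin_iff_div] at hy
  obtain ⟨r, hr, s, hs, rfl⟩ := hy
  have hle : Algebra.adjoin K (divisorExpansionsC K N) ≤ repAlg N ι := by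
    rw [Algebra.adjoin_le_iff]
    rintro _ ⟨d, hd0, hd, rfl⟩
    exact ⟨_, Rep.jd N d hd⟩
  by_cases hs0 : s = 0
  · subst hs0
    refine ⟨0, 1, 0, 1, one_ne_zero, by simp, ?_, Rep.one⟩
    have := Rep.const (N := N) (ι := ι) 0
    rw [map_zero] at this
    convert! this using 1
    funext τ
    simp
  · obtain ⟨U, hU⟩ := hle hr
    obtain ⟨V, hV⟩ := hle hs
    exact ⟨r, s, U, V, hs0, div_mul_cancel₀ _ hs0, hU, hV⟩

theorem exists_rep_frac_bar (N : ℕ) (ι : AlgebraicClosure ℚ →+* ℂ)
    {y : LaurentSeries (AlgebraicClosure ℚ)} (hy : y ∈ modularFunctionFieldBar N) :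
    ∃ (u v : LaurentSeries (AlgebraicClosure ℚ)) (U V : ℍ → ℂ), v ≠ 0 ∧ y * v = u ∧
      Rep N ι u U ∧ Rep N ι v V :=
  exists_rep_frac N ι (by rwa [modularFunctionFieldBar, laurentBaseChange_eq] at hy)

/-- If `y` is in the function field and is the expansion of *some* holomorphic function on `ℍ`, then
this function is `Γ₀(N)`-invariant. -/
theorem inv_of_lexp (N : ℕ) {K : Type*} [Field K] (ι : K →+* ℂ) {y : LaurentSeries K}
    (hy : y ∈ modularFunctionFieldFullC K N) {F : ℍ → ℂ} (hF : MDiff F)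
    (hL : LExp 1 F (coeffMap ι y)) (γ : SL(2, ℤ)) (hγ : γ ∈ Gamma0 N) (τ : ℍ) :
    F (γ • τ) = F τ := by
  obtain ⟨u, v, U, V, hv, huv, hU, hV⟩ := exists_rep_frac N ι hy
  have h1 : F * V = U := by
    have := hL.mul hV.lexp
    rw [← map_mul, huv] at this
    exact this.funext hU.lexp
  have hV0 : V ≠ 0 := fun h0 => hv (hV.eq_zero_iff.mpr h0)
  have hFγ : MDiff (fun τ : ℍ => F (γ • τ)) :=
    hF.comp (UpperHalfPlane.mdifferentiable_smul (by simp))
  have h2 : V * ((fun τ : ℍ => F (γ • τ)) - F) = 0 := by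
    funext σ
    have e1 := congrFun h1 σ
    have e2 := congrFun h1 (γ • σ)
    simp only [Pi.mul_apply, hV.inv γ hγ, hU.inv γ hγ] at e1 e2
    simp only [Pi.mul_apply, Pi.sub_apply, Pi.zero_apply]
    linear_combination e2 - e1
  have h3 := UpperHalfPlane.mul_eq_zero_iff hV.mdiff (hFγ.sub hF) |>.mp h2
  have h4 := h3.resolve_left hV0
  have := congrFun h4 τ
  simpa [sub_eq_zero] using this

/-- The named input `FunctionFieldGeneration`. -/
theorem functionFieldGeneration (N : ℕ) [NeZero N] : FunctionFieldGeneration N := by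
  intro d hd hne
  have := Rep.jd (K := ℚ) (ι := algebraMap ℚ ℂ) N d hd
  exact mem_modularFunctionFieldC N _ this.mdiff this.inv this.growth this.lexp

end Fermat.Agent.ModFun
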