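import Mathlib
import Fermat.Agent.X0Emb.Hermite
import Fermat.Agent.ModFun.Basic

/-!
# General Hermite decomposition and growth of `F ((aτ+b)/d)`
-/

set_option autoImplicit false

open UpperHalfPlane hiding I
open ModularForm Matrix.SpecialLinearGroup Filter Asymptotics CongruenceSubgroup
open scoped MatrixGroups Manifold ModularForm Polynomial Topology

noncomputable section

namespace Fermat.Agent.ModFun

open Fermat.Agent.X0Emb

/-- Hermite decomposition of an integral matrix with positive determinant. -/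
theorem hermite_int (m00 m01 m10 m11 : ℤ) (D0 : ℕ) (hD0 : D0 ≠ 0)
    (hdet : m00 * m11 - m01 * m10 = D0) :
    ∃ (a b d' : ℕ) (g' : SL(2, ℤ)), a * d' = D0 ∧ b < d' ∧ m00 = g' 0 0 * a ∧
      m01 = g' 0 0 * b + g' 0 1 * d' ∧ m10 = g' 1 0 * a ∧ m11 = g' 1 0 * b + g' 1 1 * d' := by
  have hd0 : (D0 : ℤ) ≠ 0 := by exact_mod_cast hD0
  set a : ℕ := Int.gcd m00 m10 with ha
  have ha0 : a ≠ 0 := by
    rw [ha, Ne, Int.gcd_eq_zero_iff]
    rintro ⟨h1, h2⟩
    rw [h1, h2] at hdet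
    simp at hdet
    exact hd0 hdet.symm
  have haZ : (a : ℤ) ≠ 0 := by exact_mod_cast ha0
  obtain ⟨x, hx⟩ : (a : ℤ) ∣ m00 := Int.gcd_dvd_left _ _
  obtain ⟨z, hz⟩ : (a : ℤ) ∣ m10 := Int.gcd_dvd_right _ _
  have hxz : IsCoprime x z := by
    rw [Int.isCoprime_iff_gcd_eq_one]
    have h1 : Int.gcd m00 m10 = a * Int.gcd x z := by
      conv_lhs => rw [hx, hz, Int.gcd_mul_left, Int.natAbs_natCast]
    rw [← ha] at h1
    have h2 : a * Int.gcd x z = a * 1 := by rw [← h1, mul_one]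
    exact Nat.eq_of_mul_eq_mul_left (Nat.pos_of_ne_zero ha0) h2
  obtain ⟨g₀, hg0⟩ := hxz.exists_SL2_col 0
  obtain ⟨hg00, hg10⟩ := hg0
  have hdet0 := sl_det g₀
  rw [hg00, hg10] at hdet0
  set y := g₀ 0 1 with hy
  set w := g₀ 1 1 with hw
  set D : ℤ := x * m11 - z * m01 with hD
  set B : ℤ := w * m01 - y * m11 with hB
  have haD : (a : ℤ) * D = D0 := by
    rw [hD]
    linear_combination (-m11) * hx + m01 * hz + hdet
  have hDpos : 0 < D := by
    have h1 : (0 : ℤ) < a := by exact_mod_cast Nat.pos_of_ne_zero ha0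
    have h2 : (0 : ℤ) < D0 := by exact_mod_cast Nat.pos_of_ne_zero hD0
    rw [← haD] at h2
    exact (mul_pos_iff_of_pos_left h1).mp h2
  set b : ℤ := B % D with hb
  have hb0 : 0 ≤ b := Int.emod_nonneg _ hDpos.ne'
  have hbD : b < D := Int.emod_lt_of_pos _ hDpos
  set n : ℤ := B / D with hn
  have hBn : B = b + n * D := by
    have := Int.emod_add_mul_ediv B D
    rw [← hb, ← hn] at this
    linarith
  let g' : SL(2, ℤ) := ⟨!![x, x * n + y; z, z * n + w], by
    rw [Matrix.det_fin_two_of]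
    linear_combination hdet0⟩
  have e00 : g' 0 0 = x := rfl
  have e01 : g' 0 1 = x * n + y := rfl
  have e10 : g' 1 0 = z := rfl
  have e11 : g' 1 1 = z * n + w := rfl
  refine ⟨a, b.toNat, D.toNat, g', ?_, by omega, ?_, ?_, ?_, ?_⟩
  · have : ((a * D.toNat : ℕ) : ℤ) = (D0 : ℤ) := by
      push_cast
      rw [Int.toNat_of_nonneg hDpos.le, haD]
    exact_mod_cast this
  · rw [e00, hx]; ring
  · rw [e00, e01, Int.toNat_of_nonneg hDpos.le, Int.toNat_of_nonneg hb0]
    have h1 : x * B + y * D = m01 := by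
      rw [hB, hD]
      linear_combination m01 * hdet0
    linear_combination -h1 + x * hBn
  · rw [e10, hz]; ring
  · rw [e10, e11, Int.toNat_of_nonneg hDpos.le, Int.toNat_of_nonneg hb0]
    have h1 : z * B + w * D = m11 := by
      rw [hB, hD]
      linear_combination m11 * hdet0
    linear_combination -h1 + z * hBn

/-- Hermite decomposition for a general affine map. -/
theorem exists_hermite_aff (a₁ b₁ d₁ : ℕ) [NeZero a₁] [NeZero d₁] (g : SL(2, ℤ)) :
    ∃ (a b d' : ℕ) (_ : NeZero a) (_ : NeZero d') (g' : SL(2, ℤ)), a * d' = a₁ * d₁ ∧ b < d' ∧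
      ∀ τ : ℍ, aff a₁ b₁ d₁ (g • τ) = g' • aff a b d' τ := by
  have hD0 : a₁ * d₁ ≠ 0 := mul_ne_zero (NeZero.ne _) (NeZero.ne _)
  obtain ⟨a, b, d', g', h1, h2, h00, h01, h10, h11⟩ := hermite_int (a₁ * g 0 0 + b₁ * g 1 0)
    (a₁ * g 0 1 + b₁ * g 1 1) (d₁ * g 1 0) (d₁ * g 1 1) (a₁ * d₁) hD0 (by
      push_cast
      linear_combination (a₁ * d₁ : ℤ) * sl_det g)
  have ha : NeZero a := ⟨by rintro rfl; rw [zero_mul] at h1; exact hD0 h1.symm⟩
  have hd : NeZero d' := ⟨by rintro rfl; rw [mul_zero] at h1; exact hD0 h1.symm⟩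
  exact ⟨a, b, d', ha, hd, g', h1, h2, aff_smul_eq a₁ b₁ d₁ a b d' g g' h00 h01 h10 h11⟩

theorem aff_im (a b d : ℕ) [NeZero a] [NeZero d] (τ : ℍ) : (aff a b d τ).im = a * τ.im / d := by
  have h : (((a : ℂ) * τ + b) / d).im = a * τ.im / d := by
    rw [Complex.div_natCast_im]; simp
  exact h

theorem tendsto_aff (a b d : ℕ) [NeZero a] [NeZero d] :
    Tendsto (aff a b d) atImInfty atImInfty := by
  have ha : (0 : ℝ) < a := by exact_mod_cast Nat.pos_of_ne_zero (NeZero.ne a)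
  have hd : (0 : ℝ) < d := by exact_mod_cast Nat.pos_of_ne_zero (NeZero.ne d)
  rw [atImInfty, tendsto_comap_iff]
  have h1 : Tendsto (fun τ : ℍ => (a / d : ℝ) * τ.im) atImInfty atTop :=
    Tendsto.const_mul_atTop (by positivity) tendsto_comap
  refine h1.congr fun τ => ?_
  rw [Function.comp_apply, aff_im]
  ring

theorem GrowthInf.comp_aff {F : ℍ → ℂ} (hF : GrowthInf F) (a b d : ℕ) [NeZero a] [NeZero d] :
    GrowthInf (fun τ => F (aff a b d τ)) := by
  obtain ⟨m, hm⟩ := hF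
  have h1 := hm.comp_tendsto (tendsto_aff a b d)
  refine ⟨m * a, h1.trans (IsBigO.of_norm_le fun τ => ?_)⟩
  simp only [Function.comp_apply]
  rw [Real.norm_of_nonneg (Real.exp_pos _).le, aff_im]
  refine Real.exp_le_exp.mpr ?_
  have hd : (1 : ℝ) ≤ d := by exact_mod_cast Nat.one_le_iff_ne_zero.mpr (NeZero.ne d)
  have hτ := τ.im_pos
  have h2 : (a : ℝ) * τ.im / d ≤ a * τ.im := div_le_self (by positivity) hd
  push_cast
  calc (m : ℝ) * (a * τ.im / d) ≤ m * (a * τ.im) := by gcongr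
    _ = m * a * τ.im := by ring

theorem ModGrowth.comp_aff {F : ℍ → ℂ} (hF : ModGrowth F) (a b d : ℕ) [NeZero a] [NeZero d] :
    ModGrowth (fun τ => F (aff a b d τ)) := by
  intro σ
  obtain ⟨a', b', d', ha', hd', g', -, -, h3⟩ := exists_hermite_aff a b d σ
  have h4 : (fun τ : ℍ => F (aff a b d (σ • τ))) = fun τ => F (g' • aff a' b' d' τ) := by
    funext τ; rw [h3]
  rw [h4]
  exact GrowthInf.comp_aff (F := fun τ => F (g' • τ)) (hF g') a' b' d'

end Fermat.Agent.ModFun
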