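import Mathlib
import Fermat.Agent.TEll.SecNorm
import Fermat.Agent.X0Emb.LExp

/-!
# `secNorm` as a product over roots of unity
-/

set_option autoImplicit false

noncomputable section

namespace Fermat.Agent.ModFun

open ModularCurve Fermat.Agent.TEll Fermat.Agent.X0Emb

theorem twist_single {R : Type*} [CommRing R] (c : Rˣ) (n : ℤ) (r : R) :
    twist c (HahnSeries.single n r) = HahnSeries.single n (((c ^ n : Rˣ) : R) * r) := by
  ext m
  rw [twist_coeff]
  rcases eq_or_ne m n with rfl | hm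
  · rw [HahnSeries.coeff_single_same, HahnSeries.coeff_single_same]
  · rw [HahnSeries.coeff_single_of_ne hm, HahnSeries.coeff_single_of_ne hm, mul_zero]

theorem twist_qExpand {R : Type*} [CommRing R] (c : Rˣ) (ℓ : ℕ) [NeZero ℓ] (hc : c ^ ℓ = 1)
    (y : LaurentSeries R) : twist c (qExpand R ℓ y) = qExpand R ℓ y := by
  ext m
  rw [twist_coeff]
  by_cases hm : (ℓ : ℤ) ∣ m
  · obtain ⟨k, rfl⟩ := hm
    rw [zpow_mul, zpow_natCast, hc, one_zpow, Units.val_one, one_mul]
  · rw [qExpand_coeff_of_not_dvd ℓ _ hm, mul_zero]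

/-- The norm along `q ↦ q^ℓ` is the product over the `ℓ`-th roots of unity. -/
theorem qExpand_secNorm {R : Type*} [CommRing R] [IsDomain R] (ℓ : ℕ) [NeZero ℓ] (c : Rˣ)
    (hc : IsPrimitiveRoot (c : R) ℓ) (y : LaurentSeries R) :
    qExpand R ℓ (secNorm R ℓ y) = ∏ b : Fin ℓ, twist (c ^ (b : ℕ)) y := by
  have hcℓ : ∀ b : ℕ, (c ^ b) ^ ℓ = 1 := by
    intro b
    rw [← pow_mul, mul_comm, pow_mul]
    have : c ^ ℓ = 1 := Units.ext (by push_cast; exact hc.pow_eq_one)
    rw [this, one_pow]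
  set M : Matrix (Fin ℓ) (Fin ℓ) (LaurentSeries R) := Matrix.of fun i j : Fin ℓ =>
      sec ℓ (i : ℤ) (y * HahnSeries.single (j : ℤ) (1 : R)) with hM
  set V : Matrix (Fin ℓ) (Fin ℓ) (LaurentSeries R) :=
    Matrix.vandermonde (fun b : Fin ℓ => HahnSeries.single (1 : ℤ) (((c ^ (b : ℕ) : Rˣ) : R)))
    with hV
  have hVapp : ∀ b i : Fin ℓ, V b i =
      HahnSeries.single (i : ℤ) ((((c ^ (b : ℕ)) ^ (i : ℤ) : Rˣ) : R)) := by
    intro b i
    rw [hV, Matrix.vandermonde_apply, HahnSeries.single_pow]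
    simp
  have hVdet : V.det ≠ 0 := by
    rw [hV, Matrix.det_vandermonde_ne_zero_iff]
    intro a b hab
    have h1 := HahnSeries.single_injective (1 : ℤ) hab
    have h2 : (c : R) ^ (a : ℕ) = (c : R) ^ (b : ℕ) := by
      simpa using h1
    exact Fin.ext (hc.pow_inj a.2 b.2 h2)
  have hmul : V * M.map (qExpand R ℓ) =
      Matrix.diagonal (fun b : Fin ℓ => twist (c ^ (b : ℕ)) y) * V := by
    ext1 b j
    rw [Matrix.mul_apply, Matrix.diagonal_mul, hVapp]
    have h1 := congrArg (twist (c ^ (b : ℕ)))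
      (sum_qExpand_sec R ℓ (y * HahnSeries.single (j : ℤ) (1 : R)))
    rw [map_sum, map_mul, twist_single, mul_one] at h1
    rw [← h1]
    refine Finset.sum_congr rfl fun i _ => ?_
    rw [hVapp, map_mul, twist_single, twist_qExpand _ ℓ (hcℓ _), mul_one, mul_comm]
    rfl
  have hdet := congrArg Matrix.det hmul
  rw [Matrix.det_mul, Matrix.det_mul, Matrix.det_diagonal, mul_comm] at hdet
  have h3 := mul_right_cancel₀ hVdet hdet
  rw [secNorm_eq_det, RingHom.map_det]
  exact h3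

end Fermat.Agent.ModFun
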