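import Mathlib
import Fermat.Agent.ModFun.SecProd
import Fermat.Agent.ModFun.Rep
import Fermat.Agent.ModFun.HermiteGen
import Fermat.Agent.HeckePar.Commute
import Fermat.Agent.TEll.Basic

/-!
# The multiplicative Hecke operator on functions and `TEll`
-/

set_option autoImplicit false

open UpperHalfPlane hiding I
open ModularForm Matrix.SpecialLinearGroup Filter Asymptotics CongruenceSubgroup
open scoped MatrixGroups Manifold ModularForm Polynomial Topology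

noncomputable section

namespace Fermat.Agent.ModFun

open Fermat.Agent.X0Emb Fermat.Agent.TEll Fermat.Agent.HeckePar ModularCurve

local notation "𝕢" => Function.Periodic.qParam

theorem qParam_nat_pow (ℓ : ℕ) [NeZero ℓ] (τ : ℍ) : 𝕢 (ℓ : ℝ) (τ : ℂ) ^ (ℓ : ℤ) = 𝕢 1 (τ : ℂ) := by
  have hℓ : (ℓ : ℂ) ≠ 0 := by exact_mod_cast NeZero.ne ℓ
  rw [zpow_natCast, Function.Periodic.qParam, Function.Periodic.qParam, ← Complex.exp_nat_mul]
  congr 1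
  simp only [Complex.ofReal_natCast, Complex.ofReal_one]
  field_simp

theorem lexp_of_qExpand (ℓ : ℕ) [NeZero ℓ] {g : ℍ → ℂ} {H : LaurentSeries ℂ}
    (hg : LExp (ℓ : ℝ) g (qExpand ℂ ℓ H)) : LExp 1 g H := by
  intro τ
  have h1 := hg τ
  have hinj : Function.Injective (fun n : ℤ ↦ (ℓ : ℤ) * n) :=
    mul_right_injective₀ (by exact_mod_cast NeZero.ne ℓ)
  rw [← hinj.hasSum_iff] at h1
  · convert! h1 using 2 with n
    simp only [Function.comp, qExpand_coeff_mul]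
    rw [zpow_mul, qParam_nat_pow]
  · intro n hn
    rw [qExpand_coeff_of_not_dvd, zero_mul]
    rintro ⟨m, rfl⟩
    exact hn ⟨m, rfl⟩

theorem lexp_to_qExpand (ℓ : ℕ) [NeZero ℓ] {g : ℍ → ℂ} {H : LaurentSeries ℂ}
    (hg : LExp 1 g H) : LExp (ℓ : ℝ) g (qExpand ℂ ℓ H) := by
  intro τ
  have hinj : Function.Injective (fun n : ℤ ↦ (ℓ : ℤ) * n) :=
    mul_right_injective₀ (by exact_mod_cast NeZero.ne ℓ)
  rw [← hinj.hasSum_iff]
  · convert! hg τ using 2 with n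
    simp only [Function.comp, qExpand_coeff_mul]
    rw [zpow_mul, qParam_nat_pow]
  · intro n hn
    rw [qExpand_coeff_of_not_dvd, zero_mul]
    rintro ⟨m, rfl⟩
    exact hn ⟨m, rfl⟩

theorem zetaU_pow (ℓ b : ℕ) : zetaU 1 ℓ ^ b = zetaU b ℓ := by
  ext
  simp only [zetaU, Units.val_pow_eq_pow_val, Units.val_mk0, ← Complex.exp_nat_mul]
  congr 1
  push_cast
  ring

theorem zetaU_isPrimitiveRoot (ℓ : ℕ) [NeZero ℓ] :
    IsPrimitiveRoot ((zetaU 1 ℓ : ℂˣ) : ℂ) ℓ := by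
  have h := Complex.isPrimitiveRoot_exp ℓ (NeZero.ne ℓ)
  simpa [zetaU] using h

/-- The function `∏_b F((τ+b)/ℓ)` has expansion `secNorm`. -/
theorem lexp_secNorm (ℓ : ℕ) [NeZero ℓ] {F : ℍ → ℂ} {y : LaurentSeries ℂ} (hF : LExp 1 F y) :
    LExp 1 (fun τ => ∏ b : Fin ℓ, F (aff 1 b ℓ τ)) (secNorm ℂ ℓ y) := by
  apply lexp_of_qExpand ℓ
  rw [qExpand_secNorm ℓ (zetaU 1 ℓ) (zetaU_isPrimitiveRoot ℓ)]
  have h := lexp_prod (h := (ℓ : ℝ)) (Finset.univ : Finset (Fin ℓ))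
    (f := fun b τ => F (aff 1 b ℓ τ)) (F := fun b => twist (zetaU 1 ℓ ^ (b : ℕ)) y) fun b _ => by
      have h1 := hF.aff 1 b ℓ 1 ℓ (by ring)
      rw [qExpand_one_apply, ← zetaU_pow] at h1
      exact h1
  convert! h using 1
  funext τ
  simp

theorem lexp_aff_mul (ℓ : ℕ) [NeZero ℓ] {F : ℍ → ℂ} {y : LaurentSeries ℂ} (hF : LExp 1 F y) :
    LExp 1 (fun τ => F (aff ℓ 0 1 τ)) (qExpand ℂ ℓ y) := by
  have h := hF.aff ℓ 0 1 ℓ 1 (by ring)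
  rw [zetaU_zero, twist_one, Nat.cast_one] at h
  exact h

theorem lexp_TSer (ℓ : ℕ) [NeZero ℓ] {F : ℍ → ℂ} {y : LaurentSeries ℂ} (hF : LExp 1 F y) :
    LExp 1 (fun τ => F (aff ℓ 0 1 τ) * ∏ b : Fin ℓ, F (aff 1 b ℓ τ)) (TSer ℂ ℓ y) :=
  (lexp_aff_mul ℓ hF).mul (lexp_secNorm ℓ hF)

theorem hrep_none_smul (ℓ : ℕ) [NeZero ℓ] (τ : ℍ) : hrep ℓ none • τ = aff ℓ 0 1 τ := by
  ext
  rw [hrep, coe_heckeDiagMatrix_smul (NeZero.ne ℓ), coe_aff]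
  simp

theorem hrep_some_smul (ℓ : ℕ) [NeZero ℓ] (j : ZMod ℓ) (τ : ℍ) :
    hrep ℓ (some j) • τ = aff 1 j.val ℓ τ := by
  ext
  rw [hrep, coe_heckeMatrix_smul (NeZero.ne ℓ), coe_aff]
  simp

theorem zmod_prod_eq {M : Type*} [CommMonoid M] (ℓ : ℕ) [NeZero ℓ] (f : ℕ → M) :
    ∏ j : ZMod ℓ, f j.val = ∏ b : Fin ℓ, f b := by
  cases ℓ with
  | zero => exact absurd rfl (NeZero.ne 0)
  | succ n => rfl

section Prod

variable {N ℓ : ℕ} [hℓ : Fact ℓ.Prime]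

theorem prod_hidx_of_not_dvd (hN : ¬ ℓ ∣ N) (F : ℍ → ℂ) (τ : ℍ) [NeZero ℓ] :
    ∏ x : HIdx N ℓ, F (hrep ℓ x.1 • τ) = F (aff ℓ 0 1 τ) * ∏ b : Fin ℓ, F (aff 1 b ℓ τ) := by
  rw [← Equiv.prod_comp (hidxEquivOfNotDvd hN).symm, Fintype.prod_option,
    ← zmod_prod_eq ℓ (fun b => F (aff 1 b ℓ τ))]
  congr 1
  · exact congrArg F (hrep_none_smul ℓ τ)
  · exact Finset.prod_congr rfl fun j _ => congrArg F (hrep_some_smul ℓ j τ)

theorem prod_hidx_of_dvd (hN : ℓ ∣ N) (F : ℍ → ℂ) (τ : ℍ) [NeZero ℓ] :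
    ∏ x : HIdx N ℓ, F (hrep ℓ x.1 • τ) = ∏ b : Fin ℓ, F (aff 1 b ℓ τ) := by
  rw [← Equiv.prod_comp (hidxEquivOfDvd hN).symm,
    ← zmod_prod_eq ℓ (fun b => F (aff 1 b ℓ τ))]
  exact Finset.prod_congr rfl fun j _ => congrArg F (hrep_some_smul ℓ j τ)

theorem hrep_smul_eq_aff [NeZero ℓ] (x : Option (ZMod ℓ)) :
    ∃ (a b d : ℕ) (_ : NeZero a) (_ : NeZero d), ∀ τ : ℍ, hrep ℓ x • τ = aff a b d τ := by
  cases x with
  | none => exact ⟨ℓ, 0, 1, inferInstance, inferInstance, fun τ => hrep_none_smul ℓ τ⟩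
  | some j => exact ⟨1, j.val, ℓ, inferInstance, inferInstance, fun τ => hrep_some_smul ℓ j τ⟩

theorem mdiff_comp_hrep [NeZero ℓ] {F : ℍ → ℂ} (hF : MDiff F) (x : Option (ZMod ℓ)) :
    MDiff (fun τ => F (hrep ℓ x • τ)) := by
  obtain ⟨a, b, d, ha, hd, h⟩ := hrep_smul_eq_aff x
  have : (fun τ : ℍ => F (hrep ℓ x • τ)) = fun τ => F (aff a b d τ) := funext fun τ => by rw [h]
  rw [this]
  exact mdiff_comp_aff hF a b d

theorem growth_comp_hrep [NeZero ℓ] {F : ℍ → ℂ} (hF : ModGrowth F) (x : Option (ZMod ℓ)) :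
    ModGrowth (fun τ => F (hrep ℓ x • τ)) := by
  obtain ⟨a, b, d, ha, hd, h⟩ := hrep_smul_eq_aff x
  have : (fun τ : ℍ => F (hrep ℓ x • τ)) = fun τ => F (aff a b d τ) := funext fun τ => by rw [h]
  rw [this]
  exact hF.comp_aff a b d

theorem mulOp_eq_prod (F : ℍ → ℂ) :
    (heckeSys N ℓ).mulOp F = ∏ x : HIdx N ℓ, (fun τ => F (hrep ℓ x.1 • τ)) := by
  funext τ
  rw [Finset.prod_apply]
  rfl

theorem mdiff_mulOp {F : ℍ → ℂ} (hF : MDiff F) : MDiff ((heckeSys N ℓ).mulOp F) := by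
  have : NeZero ℓ := ⟨hℓ.out.ne_zero⟩
  classical
  rw [mulOp_eq_prod]
  have key : ∀ s : Finset (HIdx N ℓ), MDiff (∏ x ∈ s, (fun τ => F (hrep ℓ x.1 • τ))) := by
    intro s
    induction s using Finset.induction_on with
    | empty => exact mdifferentiable_const
    | insert a s ha ih =>
      rw [Finset.prod_insert ha]
      exact (mdiff_comp_hrep hF _).mul ih
  exact key _

theorem growth_mulOp {F : ℍ → ℂ} (hF : ModGrowth F) : ModGrowth ((heckeSys N ℓ).mulOp F) := by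
  have : NeZero ℓ := ⟨hℓ.out.ne_zero⟩
  rw [mulOp_eq_prod]
  exact ModGrowth.prod _ fun x _ => growth_comp_hrep hF _

theorem mulOp_pow (F : ℍ → ℂ) (n : ℕ) :
    (heckeSys N ℓ).mulOp (F ^ n) = ((heckeSys N ℓ).mulOp F) ^ n := by
  funext τ
  simp only [CosetSys.mulOp, Pi.pow_apply, Finset.prod_pow]

theorem mulOp_mul (F G : ℍ → ℂ) :
    (heckeSys N ℓ).mulOp (F * G) = (heckeSys N ℓ).mulOp F * (heckeSys N ℓ).mulOp G := by
  funext τ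
  simp only [CosetSys.mulOp, Pi.mul_apply, Finset.prod_mul_distrib]

/-- The Hecke operator on `χ`-automorphic functions. -/
theorem mulOp_char {χ : Gamma0 N →* ℂˣ} {F : ℍ → ℂ}
    (hF : ∀ (γ : Gamma0 N) (τ : ℍ), F ((γ : SL(2, ℤ)) • τ) = (χ γ : ℂ) * F τ)
    (γ : Gamma0 N) (τ : ℍ) :
    (heckeSys N ℓ).mulOp F ((γ : SL(2, ℤ)) • τ) =
      (((heckeSys N ℓ).transfer χ γ : ℂˣ) : ℂ) * (heckeSys N ℓ).mulOp F τ :=
  (heckeSys N ℓ).mulOp_smul χ (Units.coeHom ℂ) F hF γ τ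

/-- The expansion of the multiplicative Hecke operator, `ℓ ∤ N`. -/
theorem lexp_mulOp_of_not_dvd (hN : ¬ ℓ ∣ N) [NeZero ℓ] {F : ℍ → ℂ} {y : LaurentSeries ℂ}
    (hF : LExp 1 F y) : LExp 1 ((heckeSys N ℓ).mulOp F) (TSer ℂ ℓ y) := by
  have h := lexp_TSer ℓ hF
  have h2 : (heckeSys N ℓ).mulOp F =
      fun τ => F (aff ℓ 0 1 τ) * ∏ b : Fin ℓ, F (aff 1 b ℓ τ) :=
    funext fun τ => prod_hidx_of_not_dvd hN F τ
  rw [h2]
  exact h

/-- The expansion of the multiplicative Hecke operator, `ℓ ∣ N`. -/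
theorem lexp_mulOp_of_dvd (hN : ℓ ∣ N) [NeZero ℓ] {F : ℍ → ℂ} {y : LaurentSeries ℂ}
    (hF : LExp 1 F y) : LExp 1 ((heckeSys N ℓ).mulOp F) (secNorm ℂ ℓ y) := by
  have h := lexp_secNorm ℓ hF
  have h2 : (heckeSys N ℓ).mulOp F = fun τ => ∏ b : Fin ℓ, F (aff 1 b ℓ τ) :=
    funext fun τ => prod_hidx_of_dvd hN F τ
  rw [h2]
  exact h

end Prod

/-- (NORMH) -/
theorem lexp_TEll {L : Type*} [Field L] [Algebra ℚ L] {N ℓ : ℕ} [NeZero N] [NeZero ℓ]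
    [hℓ : Fact ℓ.Prime] (hN : ¬ ℓ ∣ N) (hsw : HasSwap L N ℓ)
    (hdeg : AlgebraicCurve.finrankAlong L (heckeAlphaBar L N ℓ) = ℓ + 1) (ι : L →+* ℂ)
    {f : FF0 L N} {F : ℍ → ℂ} (hF : LExp 1 F (coeffMap ι (f : LaurentSeries L))) :
    LExp 1 ((heckeSys N ℓ).mulOp F) (coeffMap ι (TEll L N ℓ f : LaurentSeries L)) := by
  rw [coe_TEll_eq_TSer hℓ.out hsw hdeg, coeffMap_TSer]
  exact lexp_mulOp_of_not_dvd hN hF

end Fermat.Agent.ModFun
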