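import Mathlib
import Fermat.Agent.EisChar.Descent
import Fermat.Agent.ModFun.NormH

/-!
# Functions with character on `ℍ`
-/

set_option autoImplicit false

open UpperHalfPlane hiding I
open ModularForm Matrix.SpecialLinearGroup Filter Asymptotics CongruenceSubgroup
open scoped MatrixGroups Manifold ModularForm Polynomial Topology

noncomputable section

namespace Fermat.Agent.ModFun

open Fermat.Agent.X0Emb Fermat.Agent.TEll Fermat.Agent.HeckePar Fermat.Agent.EisChar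
  Fermat.Agent.JLevelOne Fermat.Agent.S28aux ModularCurve Fermat.Agent.IntStruct

local notation "𝕢" => Function.Periodic.qParam

/-- Holomorphic functions on `ℍ`, meromorphic at the cusps, with character `χ` on `Γ`. -/
structure CharFun (Γ : Subgroup SL(2, ℤ)) (χ : Γ →* ℂˣ) (g : ℍ → ℂ) : Prop where
  mdiff : MDiff g
  growth : ModGrowth g
  smul : ∀ (γ : Γ) (τ : ℍ), g ((γ : SL(2, ℤ)) • τ) = ((χ γ : ℂˣ) : ℂ) * g τ

theorem growthInf_disc_inv : GrowthInf (fun τ => (discriminant τ)⁻¹) :=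
  LExp_growthInf one_pos Igusa.hasLExp_discriminant_inv

theorem mdiff_disc_inv : MDiff (fun τ : ℍ => (discriminant τ)⁻¹) := by
  have h := mdiff_discriminant
  rw [UpperHalfPlane.mdifferentiable_iff] at h ⊢
  exact h.inv fun z _ => discriminant_ne_zero _

/-- The function `f / Δ^m`. -/
def quo (f : ℍ → ℂ) (m : ℕ) : ℍ → ℂ := f * (fun τ => (discriminant τ)⁻¹) ^ m

theorem quo_apply (f : ℍ → ℂ) (m : ℕ) (τ : ℍ) : quo f m τ = f τ / discriminant τ ^ m := by
  simp [quo, div_eq_mul_inv]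

theorem quo_ne_zero {f : ℍ → ℂ} (hf : f ≠ 0) (m : ℕ) : quo f m ≠ 0 := by
  obtain ⟨τ, hτ⟩ := Function.ne_iff.mp hf
  refine Function.ne_iff.mpr ⟨τ, ?_⟩
  rw [quo_apply]
  exact div_ne_zero hτ (pow_ne_zero _ (discriminant_ne_zero τ))

variable {Γ : Subgroup SL(2, ℤ)}

theorem quo_smul {k : ℤ} {m : ℕ} (hk : k = 12 * m) (f : ℍ → ℂ) (σ : SL(2, ℤ)) (τ : ℍ) :
    quo f m (σ • τ) = (f ∣[k] σ) τ / discriminant τ ^ m := by
  have hd := denom_ne_zero (σ : GL (Fin 2) ℝ) τ
  rw [quo_apply, discriminant_smul, SL_slash_apply, hk, mul_pow]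
  have h12 : (denom σ τ ^ (12 : ℤ)) ^ m = denom σ τ ^ (12 * (m : ℤ)) := by
    rw [zpow_mul, zpow_natCast]
  have hne : denom σ τ ^ (12 * (m : ℤ)) ≠ 0 := zpow_ne_zero _ hd
  have hΔ := pow_ne_zero m (discriminant_ne_zero τ)
  rw [h12]
  rw [zpow_neg]
  field_simp

theorem charFun_of_charForm {χ : Γ →* ℂˣ} {k : ℤ} {m : ℕ} (hk : k = 12 * m) {f : ℍ → ℂ}
    (hf : CharForm Γ χ k f) : CharFun Γ χ (quo f m) where
  mdiff := hf.holo.mul (mdiff_disc_inv.pow m)
  growth σ := by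
    have h1 : (fun τ : ℍ => quo f m (σ • τ)) =
        (f ∣[k] σ) * (fun τ => (discriminant τ)⁻¹) ^ m := by
      funext τ
      rw [quo_smul hk, Pi.mul_apply, Pi.pow_apply, inv_pow, div_eq_mul_inv]
    rw [h1]
    exact (GrowthInf.of_bounded (hf.bdd σ)).mul (growthInf_disc_inv.pow m)
  smul γ τ := by
    rw [quo_smul hk, hf.slash, quo_apply, Pi.smul_apply, smul_eq_mul, mul_div_assoc]

theorem lexp_of_mem_qAlg {f : ℍ → ℂ} (hf : f ∈ qAlg) :
    LExp 1 f (HahnSeries.ofPowerSeries ℤ ℂ (qExpansion 1 f)) := by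
  have h : Igusa.HasLExp f (HahnSeries.ofPowerSeries ℤ ℂ (qExpansion 1 f)) := by
    rw [Igusa.HasLExp.ofPowerSeries_iff]
    intro τ
    exact UpperHalfPlane.hasSum_qExpansion one_pos (by simpa using hf.1) hf.2.1 hf.2.2 τ
  exact h

/-- A power series with algebraic coefficients comes from `AlgebraicClosure ℚ`. -/
theorem exists_map_eq_of_algebraic (ι : AlgebraicClosure ℚ →+* ℂ) (p : PowerSeries ℂ)
    (hp : ∀ n, IsAlgebraic ℚ (p.coeff n)) :
    ∃ q : PowerSeries (AlgebraicClosure ℚ), q.map ι = p := by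
  have h1 : ∀ z : ℂ, IsAlgebraic ℚ z → ∃ w : AlgebraicClosure ℚ, ι w = z := by
    intro z hz
    let := ι.toAlgebra
    have hz' : IsAlgebraic (AlgebraicClosure ℚ) z := by
      have : IsScalarTower ℚ (AlgebraicClosure ℚ) ℂ :=
        IsScalarTower.of_algebraMap_eq fun r => (eq_ratCast (algebraMap ℚ ℂ) r).trans
          (by rw [eq_ratCast (algebraMap ℚ (AlgebraicClosure ℚ)) r]; exact (map_ratCast _ r).symm)
      exact hz.extendScalars (algebraMap ℚ (AlgebraicClosure ℚ)).injective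
    have hi : IsIntegral (AlgebraicClosure ℚ) z := hz'.isIntegral
    have hdeg := IsAlgClosed.degree_eq_one_of_irreducible _ (minpoly.irreducible hi)
    exact minpoly.mem_range_of_degree_eq_one _ _ hdeg
  choose w hw using fun n => h1 _ (hp n)
  exact ⟨PowerSeries.mk w, by ext n; rw [PowerSeries.coeff_map, PowerSeries.coeff_mk, hw]⟩

/-- A form with character of weight `12 m` and algebraic Fourier coefficients gives a function with
character and algebraic Laurent coefficients. -/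
theorem exists_lexp_quo (ι : AlgebraicClosure ℚ →+* ℂ) {f : ℍ → ℂ} (hf : f ∈ qAlg)
    (halg : ∀ n, IsAlgebraic ℚ ((qExpansion 1 f).coeff n)) (m : ℕ) :
    ∃ y : LaurentSeries (AlgebraicClosure ℚ), LExp 1 (quo f m) (coeffMap ι y) := by
  obtain ⟨p, hp⟩ := exists_map_eq_of_algebraic ι _ halg
  refine ⟨HahnSeries.ofPowerSeries ℤ _ p * deltaInvC _ ^ m, ?_⟩
  rw [map_mul, map_pow, coeffMap_deltaInvC, ModularCurve.coeffMap_ofPowerSeries, hp]
  have h2 : LExp 1 (fun τ => (discriminant τ)⁻¹) (deltaInvC ℂ) := Igusa.hasLExp_discriminant_inv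
  exact (lexp_of_mem_qAlg hf).mul (lexp_pow h2 m)

namespace CharFun

variable {χ ψ : Γ →* ℂˣ} {f g : ℍ → ℂ}

theorem mul (hf : CharFun Γ χ f) (hg : CharFun Γ ψ g) : CharFun Γ (χ * ψ) (f * g) where
  mdiff := hf.mdiff.mul hg.mdiff
  growth := hf.growth.mul hg.growth
  smul γ τ := by
    simp only [Pi.mul_apply, hf.smul, hg.smul, MonoidHom.mul_apply, Units.val_mul]
    ring

theorem one : CharFun Γ (1 : Γ →* ℂˣ) (1 : ℍ → ℂ) where
  mdiff := mdifferentiable_const
  growth := ModGrowth.one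
  smul γ τ := by simp

theorem congr_char (hf : CharFun Γ χ f) (h : χ = ψ) : CharFun Γ ψ f := h ▸ hf

theorem pow (hf : CharFun Γ χ f) (n : ℕ) : CharFun Γ (χ ^ n) (f ^ n) := by
  induction n with
  | zero => rw [pow_zero f]; exact one.congr_char (pow_zero χ).symm
  | succ n ih => rw [pow_succ f]; exact (ih.mul hf).congr_char (pow_succ χ n).symm

/-- The character is determined by the function. -/
theorem char_unique (hf : CharFun Γ χ f) (hf' : CharFun Γ ψ f) (hf0 : f ≠ 0) : χ = ψ := by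
  ext γ
  obtain ⟨τ, hτ⟩ := Function.ne_iff.mp hf0
  have h1 := hf.smul γ τ
  rw [hf'.smul γ τ] at h1
  exact (mul_right_cancel₀ hτ h1).symm

theorem rep {N : ℕ} {K : Type*} [Field K] {ι : K →+* ℂ} {y : LaurentSeries K}
    (hf : CharFun (Gamma0 N) 1 f) (hL : LExp 1 f (coeffMap ι y)) : Rep N ι y f where
  mdiff := hf.mdiff
  inv γ hγ τ := by
    have := hf.smul ⟨γ, hγ⟩ τ
    simpa using this
  growth := hf.growth
  lexp := hL

theorem ofRep {N : ℕ} {K : Type*} [Field K] {ι : K →+* ℂ} {y : LaurentSeries K}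
    (hf : Rep N ι y f) : CharFun (Gamma0 N) 1 f where
  mdiff := hf.mdiff
  growth := hf.growth
  smul γ τ := by
    rw [hf.inv _ γ.2]
    simp

/-- The Hecke operator. -/
theorem mulOp {N ℓ : ℕ} [Fact ℓ.Prime] {χ : Gamma0 N →* ℂˣ} (hf : CharFun (Gamma0 N) χ f) :
    CharFun (Gamma0 N) ((heckeSys N ℓ).transfer χ) ((heckeSys N ℓ).mulOp f) where
  mdiff := mdiff_mulOp hf.mdiff
  growth := growth_mulOp hf.growth
  smul := mulOp_char hf.smul

end CharFun

/-- (EX) For every character `χ` of finite order of `Γ₀(N)`, trivial on `T` and `-1`, there is a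
nonzero function with character `χ` and with algebraic Laurent coefficients. -/
theorem exists_charFun (N : ℕ) [NeZero N] (ι : AlgebraicClosure ℚ →+* ℂ) {n : ℕ} (hn : n ≠ 0)
    (χ : Gamma0 N →* ℂˣ) (hχ : χ ^ n = 1)
    (hT : ∀ h : ModularGroup.T ∈ Gamma0 N, χ ⟨ModularGroup.T, h⟩ = 1)
    (hneg : ∀ h : (-1 : SL(2, ℤ)) ∈ Gamma0 N, χ ⟨-1, h⟩ = 1) :
    ∃ (g : ℍ → ℂ) (y : LaurentSeries (AlgebraicClosure ℚ)), g ≠ 0 ∧ CharFun (Gamma0 N) χ g ∧
      LExp 1 g (coeffMap ι y) ∧ y ≠ 0 ∧ Rep N ι (y ^ n) (g ^ n) ∧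
      y ^ n ∈ modularFunctionFieldBar N := by
  obtain ⟨f, hf0, hf, halg⟩ := exists_algebraic_charForm N hn χ hχ hT hneg 12 (by norm_num)
    (by decide)
  have hT0 := T_mem_Gamma0 N
  have hfq : f ∈ qAlg := hf.mem_qAlg (hTΓ := hT0) (hT hT0)
  obtain ⟨y, hy⟩ := exists_lexp_quo ι hfq halg 1
  have hg := charFun_of_charForm (m := 1) (by norm_num) hf
  have hg0 : quo f 1 ≠ 0 := quo_ne_zero hf0 1
  have hrep : Rep N ι (y ^ n) (quo f 1 ^ n) := by
    refine ((hg.pow n).congr_char hχ).rep ?_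
    rw [map_pow]
    exact lexp_pow hy n
  refine ⟨quo f 1, y, hg0, hg, hy, ?_, hrep, hrep.mem_bar⟩
  rintro rfl
  apply hg0
  rw [map_zero] at hy
  exact hy.funext (LExp.zero 1)

end Fermat.Agent.ModFun
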