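import Mathlib
import Fermat.Agent.ModFun.CharFun
import Fermat.Agent.HeckePar.Faithful

/-!
# Characters attached to integral homomorphisms
-/

set_option autoImplicit false

open UpperHalfPlane hiding I
open ModularForm Matrix.SpecialLinearGroup CongruenceSubgroup
open scoped MatrixGroups Manifold ModularForm Polynomial Topology

noncomputable section

namespace Fermat.Agent.ModFun

open Fermat.Agent.X0Emb Fermat.Agent.HeckePar ModularCurve ModularCurve.Period

section powChar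

variable {Γ G : Type*} [Group Γ] [CommGroup G]

/-- The character `γ ↦ c ^ φ(γ)`. -/
def powChar (c : G) (φ : Additive Γ →+ ℤ) : Γ →* G where
  toFun γ := c ^ (φ (Additive.ofMul γ))
  map_one' := by rw [ofMul_one, map_zero, zpow_zero]
  map_mul' a b := by rw [ofMul_mul, map_add, zpow_add]

@[simp]
theorem powChar_apply (c : G) (φ : Additive Γ →+ ℤ) (γ : Γ) :
    powChar c φ γ = c ^ (φ (Additive.ofMul γ)) := rfl

theorem powChar_add (c : G) (φ ψ : Additive Γ →+ ℤ) :
    powChar c (φ + ψ) = powChar c φ * powChar c ψ := by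
  ext γ
  simp [zpow_add]

theorem powChar_zero (c : G) : powChar c (0 : Additive Γ →+ ℤ) = 1 := by
  ext γ
  simp

theorem powChar_neg (c : G) (φ : Additive Γ →+ ℤ) : powChar c (-φ) = (powChar c φ)⁻¹ := by
  ext γ
  simp [zpow_neg]

theorem powChar_smul (c : G) (m : ℤ) (φ : Additive Γ →+ ℤ) :
    powChar c (m • φ) = (powChar c φ) ^ m := by
  ext γ
  simp only [powChar_apply, AddMonoidHom.smul_apply, smul_eq_mul]
  rw [mul_comm, zpow_mul]
  rfl

theorem powChar_pow_eq_one {c : G} {n : ℕ} (hc : c ^ n = 1) (φ : Additive Γ →+ ℤ) :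
    (powChar c φ) ^ n = 1 := by
  ext γ
  show (c ^ (φ (Additive.ofMul γ))) ^ n = 1
  rw [← zpow_natCast, ← zpow_mul, mul_comm, zpow_mul, zpow_natCast, hc, one_zpow]

theorem powChar_eq_one_iff {c : G} {n : ℕ} (hc : orderOf c = n) (φ : Additive Γ →+ ℤ) :
    powChar c φ = 1 ↔ ∀ γ, (n : ℤ) ∣ φ γ := by
  constructor
  · intro h γ
    have h1 := DFunLike.congr_fun h γ.toMul
    rw [powChar_apply, MonoidHom.one_apply, ← orderOf_dvd_iff_zpow_eq_one, hc] at h1
    exact h1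
  · intro h
    ext γ
    rw [powChar_apply, MonoidHom.one_apply, ← orderOf_dvd_iff_zpow_eq_one, hc]
    exact h _

theorem transfer_powChar {H X : Type*} [Group H] [Fintype X] {ι : Γ →* H} (S : CosetSys ι X)
    (c : G) (φ : Additive Γ →+ ℤ) :
    S.transfer (powChar c φ) = powChar c (S.addTransfer φ) := by
  ext γ
  rw [CosetSys.transfer_apply, powChar_apply, CosetSys.addTransfer_apply]
  simp only [powChar_apply, toMul_ofMul]
  classical
  have key : ∀ s : Finset X, ∏ x ∈ s, c ^ (φ (Additive.ofMul (S.coc γ x))) =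
      c ^ (∑ x ∈ s, φ (Additive.ofMul (S.coc γ x))) := by
    intro s
    induction s using Finset.induction_on with
    | empty => simp
    | insert a s ha ih => rw [Finset.prod_insert ha, Finset.sum_insert ha, ih, zpow_add]
  exact key _

end powChar

variable {N : ℕ}

/-- The character `γ ↦ exp (2πi φ(γ) / n)`. -/
def expChar (n : ℕ) (φ : Additive (Gamma0 N) →+ ℤ) : Gamma0 N →* ℂˣ := powChar (zetaU 1 n) φ

theorem orderOf_zetaU (n : ℕ) [NeZero n] : orderOf (zetaU 1 n) = n := by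
  have h := (zetaU_isPrimitiveRoot n).eq_orderOf
  rw [orderOf_units] at h
  exact h.symm

theorem expChar_apply (n : ℕ) (φ : Additive (Gamma0 N) →+ ℤ) (γ : Gamma0 N) :
    ((expChar n φ γ : ℂˣ) : ℂ) = Complex.exp (2 * Real.pi * Complex.I * (φ (Additive.ofMul γ)) / n) := by
  rw [expChar, powChar_apply, Units.val_zpow_eq_zpow_val, zetaU, Units.val_mk0,
    ← Complex.exp_int_mul]
  congr 1
  push_cast
  ring

theorem expChar_add (n : ℕ) (φ ψ : Additive (Gamma0 N) →+ ℤ) :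
    expChar n (φ + ψ) = expChar n φ * expChar n ψ := powChar_add _ _ _

theorem expChar_zero (n : ℕ) : expChar n (0 : Additive (Gamma0 N) →+ ℤ) = 1 := powChar_zero _

theorem expChar_pow (n : ℕ) [NeZero n] (φ : Additive (Gamma0 N) →+ ℤ) : (expChar n φ) ^ n = 1 := by
  refine powChar_pow_eq_one ?_ φ
  have := pow_orderOf_eq_one (zetaU 1 n)
  rwa [orderOf_zetaU] at this

theorem expChar_eq_one_iff (n : ℕ) [NeZero n] (φ : Additive (Gamma0 N) →+ ℤ) :
    expChar n φ = 1 ↔ ∀ γ, (n : ℤ) ∣ φ γ := powChar_eq_one_iff (orderOf_zetaU n) φ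

/-- If all the values of `φ` are divisible by `n` then `φ = n ψ`. -/
theorem exists_smul_eq_of_dvd {Γ : Type*} [Group Γ] {n : ℤ} (_hn : n ≠ 0) (φ : Additive Γ →+ ℤ)
    (h : ∀ γ, n ∣ φ γ) : ∃ ψ : Additive Γ →+ ℤ, φ = n • ψ := by
  refine ⟨{ toFun := fun γ => φ γ / n, map_zero' := by simp, map_add' := fun a b => ?_ }, ?_⟩
  · rw [map_add, Int.add_ediv_of_dvd_left (h a)]
  · refine AddMonoidHom.ext fun γ => ?_
    show φ γ = n • (φ γ / n)
    rw [smul_eq_mul, Int.mul_ediv_cancel' (h γ)]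

theorem expChar_eq_one_iff_exists (n : ℕ) [NeZero n] (φ : Additive (Gamma0 N) →+ ℤ) :
    expChar n φ = 1 ↔ ∃ ψ : Additive (Gamma0 N) →+ ℤ, φ = (n : ℤ) • ψ := by
  rw [expChar_eq_one_iff]
  constructor
  · exact exists_smul_eq_of_dvd (by exact_mod_cast NeZero.ne n) φ
  · rintro ⟨ψ, rfl⟩ γ
    exact ⟨ψ γ, rfl⟩

theorem transfer_expChar (n : ℕ) {ℓ : ℕ} [Fact ℓ.Prime] (φ : Additive (Gamma0 N) →+ ℤ) :
    (heckeSys N ℓ).transfer (expChar n φ) = expChar n ((heckeSys N ℓ).addTransfer φ) :=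
  transfer_powChar _ _ _

/-- `χ_φ` is trivial on elements on which `φ` vanishes. -/
theorem expChar_eq_one_of (n : ℕ) (φ : Additive (Gamma0 N) →+ ℤ) (γ : Gamma0 N)
    (h : φ (Additive.ofMul γ) = 0) : expChar n φ γ = 1 := by
  rw [expChar, powChar_apply, h, zpow_zero]

theorem expChar_of_trace {n : ℕ} {φ : Additive (Gamma0 N) →+ ℤ}
    (hφ : IsParabolicHom (Gamma0 N) φ) (γ : Gamma0 N)
    (hγ : ((γ : SL(2, ℤ)) : Matrix (Fin 2) (Fin 2) ℤ).trace ^ 2 = 4) : expChar n φ γ = 1 :=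
  expChar_eq_one_of n φ γ (hφ γ hγ)

/-- `χ_φ` is trivial on elements of finite order. -/
theorem expChar_of_finite {n : ℕ} {φ : Additive (Gamma0 N) →+ ℤ} (γ : Gamma0 N) {m : ℕ}
    (hm : m ≠ 0) (hγ : γ ^ m = 1) : expChar n φ γ = 1 := by
  refine expChar_eq_one_of n φ γ ?_
  have h1 : (m : ℤ) * φ (Additive.ofMul γ) = 0 := by
    have h2 : φ (Additive.ofMul (γ ^ m)) = m • φ (Additive.ofMul γ) := by
      rw [ofMul_pow, map_nsmul]
    rw [hγ, ofMul_one, map_zero, nsmul_eq_mul] at h2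
    exact h2.symm
  exact (mul_eq_zero.mp h1).resolve_left (by exact_mod_cast hm)

theorem expChar_T {n : ℕ} {φ : Additive (Gamma0 N) →+ ℤ} (hφ : IsParabolicHom (Gamma0 N) φ)
    (h : ModularGroup.T ∈ Gamma0 N) : expChar n φ ⟨ModularGroup.T, h⟩ = 1 := by
  refine expChar_of_trace hφ _ ?_
  simp [ModularGroup.T, Matrix.trace_fin_two]

theorem expChar_neg_one {n : ℕ} {φ : Additive (Gamma0 N) →+ ℤ}
    (h : (-1 : SL(2, ℤ)) ∈ Gamma0 N) : expChar n φ ⟨-1, h⟩ = 1 := by
  refine expChar_of_finite _ two_ne_zero ?_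
  ext1
  simp

/-- (EX) for characters attached to parabolic homomorphisms. -/
theorem exists_charFun_expChar (N : ℕ) [NeZero N] (ι : AlgebraicClosure ℚ →+* ℂ) (n : ℕ) [NeZero n]
    {φ : Additive (Gamma0 N) →+ ℤ} (hφ : IsParabolicHom (Gamma0 N) φ) :
    ∃ (g : ℍ → ℂ) (y : LaurentSeries (AlgebraicClosure ℚ)), g ≠ 0 ∧
      CharFun (Gamma0 N) (expChar n φ) g ∧
      LExp 1 g (coeffMap ι y) ∧ y ≠ 0 ∧ Rep N ι (y ^ n) (g ^ n) ∧
      y ^ n ∈ modularFunctionFieldBar N :=
  exists_charFun N ι (NeZero.ne n) (expChar n φ) (expChar_pow n φ) (expChar_T hφ)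
    (fun h => expChar_neg_one h)

end Fermat.Agent.ModFun
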